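import Mathlib

/-!
# ML / [E-ORD] (L3c) : a `p`-group whose `p`-torsion is "a line" is cyclic
-/

set_option autoImplicit false

namespace Fermat.Agent.ML.EOrd

variable {G : Type*} [AddCommGroup G] {p : ℕ}

theorem eq_zero_of_nsmul_of_not_dvd (hp : p.Prime) {z : G} {k j : ℕ} (hk : p ^ k • z = 0)
    (hj : j • z = 0) (hpj : ¬ p ∣ j) : z = 0 := by
  have h1 := addOrderOf_dvd_of_nsmul_eq_zero hk
  have h2 := addOrderOf_dvd_of_nsmul_eq_zero hj
  have hcop : Nat.Coprime (p ^ k) j := Nat.Coprime.pow_left k ((Nat.Prime.coprime_iff_not_dvd hp).2 hpj)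
  have h3 : addOrderOf z ∣ 1 := by
    rw [← hcop]; exact Nat.dvd_gcd h1 h2
  exact AddMonoid.addOrderOf_eq_one_iff.1 (Nat.dvd_one.1 h3)

/-- a nonzero element killed by `p^k` has a nonzero multiple killed by `p`. -/
theorem exists_nsmul_ne_zero {t : G} {k : ℕ} (hk : p ^ k • t = 0) (ht : t ≠ 0) :
    ∃ a : ℕ, p ^ a • t ≠ 0 ∧ p • (p ^ a • t) = 0 := by
  classical
  have hex : ∃ a, p ^ a • t = 0 := ⟨k, hk⟩
  have h0 : Nat.find hex ≠ 0 := by
    intro h
    have := Nat.find_spec hex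
    rw [h, pow_zero, one_smul] at this
    exact ht this
  obtain ⟨a, ha⟩ := Nat.exists_eq_succ_of_ne_zero h0
  refine ⟨a, Nat.find_min hex (by omega), ?_⟩
  have := Nat.find_spec hex
  rw [ha, Nat.succ_eq_add_one, pow_succ', mul_smul] at this
  exact this

variable (C : AddSubgroup G)

theorem chain_zero {k : ℕ} (hk : ∀ y ∈ C, p ^ k • y = 0)
    (hline : ∀ R ∈ C, ∀ R' ∈ C, R ≠ 0 → p • R = 0 → p • R' = 0 → ∃ j : ℕ, R' = j • R)
    {y t : G} (hy : y ∈ C) (ht : t ∈ C) (hpy : p • y = 0) (ht0 : t ≠ 0) : ∃ j : ℕ, y = j • t := by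
  obtain ⟨a, ha1, ha2⟩ := exists_nsmul_ne_zero (hk t ht) ht0
  obtain ⟨j, hj⟩ := hline _ (C.nsmul_mem ht _) y hy ha1 ha2 hpy
  exact ⟨j * p ^ a, by rw [hj, mul_smul]⟩

theorem chain (hp : p.Prime) {k : ℕ} (hk : ∀ y ∈ C, p ^ k • y = 0)
    (hline : ∀ R ∈ C, ∀ R' ∈ C, R ≠ 0 → p • R = 0 → p • R' = 0 → ∃ j : ℕ, R' = j • R) :
    ∀ (b : ℕ) (y t : G), y ∈ C → t ∈ C → p ^ (b + 1) • y = 0 → p ^ b • t ≠ 0 →
      ∃ j : ℕ, y = j • t := by
  intro b
  induction b with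
  | zero =>
    intro y t hy ht hpy ht0
    rw [zero_add, pow_one] at hpy
    rw [pow_zero, one_smul] at ht0
    exact chain_zero C hk hline hy ht hpy ht0
  | succ b ih =>
    intro y t hy ht hpy ht0
    have ht0' : t ≠ 0 := by
      rintro rfl
      exact ht0 (smul_zero _)
    have h1 : p ^ (b + 1) • (p • y) = 0 := by
      rw [← mul_smul, ← pow_succ]; exact hpy
    have h2 : p ^ b • t ≠ 0 := by
      intro h
      apply ht0
      rw [pow_succ', mul_smul, h, smul_zero]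
    obtain ⟨j, hj⟩ := ih (p • y) t (C.nsmul_mem hy _) ht h1 h2
    have h3 : j • (p ^ (b + 1) • t) = 0 := by
      rw [smul_comm, ← hj]; exact h1
    have h4 : p ^ k • (p ^ (b + 1) • t) = 0 := by
      rw [smul_comm, hk t ht, smul_zero]
    have hpj : p ∣ j := by
      by_contra hpj
      exact ht0 (eq_zero_of_nsmul_of_not_dvd hp h4 h3 hpj)
    obtain ⟨j', rfl⟩ := hpj
    have h5 : p • (y - j' • t) = 0 := by
      rw [smul_sub, hj, mul_smul, sub_self]
    obtain ⟨i, hi⟩ := chain_zero C hk hline (C.sub_mem hy (C.nsmul_mem ht j')) ht h5 ht0'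
    exact ⟨i + j', by rw [add_smul, ← hi, sub_add_cancel]⟩

/-- **(L3c)** -/
theorem exists_generator (hp : p.Prime) {k : ℕ} (hk : ∀ y ∈ C, p ^ k • y = 0)
    (hline : ∀ R ∈ C, ∀ R' ∈ C, R ≠ 0 → p • R = 0 → p • R' = 0 → ∃ j : ℕ, R' = j • R) :
    ∃ t ∈ C, ∀ y ∈ C, ∃ j : ℕ, y = j • t := by
  classical
  have hex : ∃ b, ∀ y ∈ C, p ^ b • y = 0 := ⟨k, hk⟩
  rcases Nat.eq_zero_or_eq_succ_pred (Nat.find hex) with h0 | h0
  · refine ⟨0, C.zero_mem, fun y hy => ⟨0, ?_⟩⟩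
    have := Nat.find_spec hex y hy
    rw [h0, pow_zero, one_smul] at this
    rw [this, zero_smul]
  · have hmin := Nat.find_min hex (m := (Nat.find hex).pred) (by omega)
    push Not at hmin
    obtain ⟨t, ht, ht0⟩ := hmin
    refine ⟨t, ht, fun y hy => chain C hp hk hline _ y t hy ht ?_ ht0⟩
    have := Nat.find_spec hex y hy
    rw [h0] at this
    exact this

end Fermat.Agent.ML.EOrd
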