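import Fermat.Agent.ML.EOrd.UHom
import Fermat.Agent.ML.EOrd.CycAbs

/-!
# ML / [E-ORD] (L3) : `E₀[p]` is (at most) a line

`R ∈ E₀`, `p R = 0`, `R ≠ 0`: `w = u R - 1` satisfies `v ((1+w)^p - 1) ≤ v c ≤ v p`, hence
`v w ^ p ≤ v p`; `v w ² · v X = 1` gives `1 ≤ v p ² · v X ^ p`.  With the torsion bound
`v p · ∏ max 1 (v x) ≤ 1` over `(p+1)/2` distinct `x`-coordinates this is a contradiction.
-/

set_option autoImplicit false
set_option linter.unusedVariables false

namespace Fermat.Agent.ML.EOrd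

open WeierstrassCurve WeierstrassCurve.Affine WeierstrassCurve.Affine.Point
open Fermat.Agent.S05 Fermat.Agent.HW Fermat.Agent.HW.AtP

variable {K : Type*} [Field K] [DecidableEq K] {A : ValuationSubring K}
  {W : WeierstrassCurve.Affine K} {x0 y0 α β c : K} {p : ℕ}

/-- `v w ≤ 1`, `v ((1+w)^p - 1) ≤ v p` ⟹ `v w ^ p ≤ v p`. -/
theorem val_pow_le_of_one_add_pow (hp : p.Prime) {w : K} (hw : A.valuation w ≤ 1)
    (h : A.valuation ((w + 1) ^ p - 1) ≤ A.valuation (p : K)) :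
    A.valuation w ^ p ≤ A.valuation (p : K) := by
  obtain ⟨r, hr⟩ := exists_add_pow_prime_eq hp (⟨w, (A.valuation_le_one_iff _).1 hw⟩ : A) 1
  have hr' := congrArg (fun z : A => (z : K)) hr
  simp only [one_pow, mul_one] at hr'
  push_cast at hr'
  have e : w ^ p = ((w + 1) ^ p - 1) - (p : K) * (w * (r : K)) := by
    rw [hr']; ring
  rw [← map_pow, e]
  refine Valuation.map_sub_le _ h ?_
  rw [map_mul]
  refine mul_le_of_le_one_right' ?_
  rw [map_mul]
  exact mul_le_one' hw ((A.valuation_le_one_iff _).2 r.2)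

/-- **(L3a)** -/
theorem one_le_of_torsion (N : NodeData A W x0 y0 α β c) (I : IntData A W) (D : PData A p)
    (hc : A.valuation c ≤ A.valuation (p : K)) {R : W.Point} (hR : InE0 A x0 R) (hR0 : R ≠ 0)
    (hpR : p • R = 0) :
    1 ≤ A.valuation (p : K) ^ 2 * A.valuation (xc R - x0) ^ p := by
  have hX := hR.resolve_left hR0
  have h1 := val_uu_nsmul N I hR p
  rw [hpR, uu_zero, ← Valuation.map_neg, neg_sub] at h1
  have hu := val_uu N hR
  have hw : A.valuation (uu x0 y0 α β R - 1) ≤ 1 :=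
    Valuation.map_sub_le _ hu.le (by rw [map_one])
  have h2 := val_pow_le_of_one_add_pow D.hp hw (by rw [sub_add_cancel]; exact h1.trans hc)
  have h3 := val_uu_sub_one N hR0 hX
  calc (1 : A.ValueGroup) = (A.valuation (uu x0 y0 α β R - 1) ^ 2 * A.valuation (xc R - x0)) ^ p := by
        rw [h3, one_pow]
    _ = (A.valuation (uu x0 y0 α β R - 1) ^ p) ^ 2 * A.valuation (xc R - x0) ^ p := by
        rw [mul_pow, pow_right_comm]
    _ ≤ A.valuation (p : K) ^ 2 * A.valuation (xc R - x0) ^ p := by gcongr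

/-- nonzero `p`-torsion points of `E₀` are not integral. -/
theorem val_xc_of_torsion (N : NodeData A W x0 y0 α β c) (I : IntData A W) (D : PData A p)
    (hc : A.valuation c ≤ A.valuation (p : K)) {R : W.Point} (hR : InE0 A x0 R) (hR0 : R ≠ 0)
    (hpR : p • R = 0) :
    1 < A.valuation (xc R) ∧ 1 ≤ A.valuation (p : K) ^ 2 * A.valuation (xc R) ^ p := by
  have h := one_le_of_torsion N I D hc hR hR0 hpR
  have hX : 1 < A.valuation (xc R - x0) := by
    by_contra hcon
    rw [not_lt] at hcon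
    have : A.valuation (p : K) ^ 2 * A.valuation (xc R - x0) ^ p < 1 := by
      calc A.valuation (p : K) ^ 2 * A.valuation (xc R - x0) ^ p
          ≤ A.valuation (p : K) ^ 2 * 1 := by
            gcongr
            exact pow_le_one₀ zero_le hcon
        _ = A.valuation (p : K) ^ 2 := mul_one _
        _ < 1 := pow_lt_one₀ zero_le D.hpA (by norm_num)
    exact absurd h (not_le.2 this)
  have e : A.valuation (xc R) = A.valuation (xc R - x0) := by
    have : xc R = (xc R - x0) + x0 := by ring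
    conv_lhs => rw [this]
    exact Valuation.map_add_eq_of_lt_left _ (lt_of_le_of_lt N.vx0 hX)
  rw [e]
  exact ⟨hX, h⟩

/-- the numerical contradiction. -/
theorem num_false {Γ : Type*} [LinearOrderedCommGroupWithZero Γ] {P a b : Γ} {j : ℕ}
    (hP0 : 0 < P) (hP1 : P < 1)
    (h1 : P * (b * a ^ j) ≤ 1) (ha : 1 ≤ P ^ 2 * a ^ (2 * j + 1)) (hb : 1 ≤ P ^ 2 * b ^ (2 * j + 1)) :
    False := by
  have e : P ^ (2 * j + 2) * (P * (b * a ^ j)) ^ (2 * j + 1)
      = P ^ (2 * j + 1) * ((P ^ 2 * b ^ (2 * j + 1)) * (P ^ 2 * a ^ (2 * j + 1)) ^ j) := by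
    have e1 : P ^ (2 * j + 2) = (P ^ 2) ^ j * P ^ 2 := by rw [pow_add, pow_mul]
    have e2 : (a ^ j) ^ (2 * j + 1) = (a ^ (2 * j + 1)) ^ j := pow_right_comm _ _ _
    rw [mul_pow, mul_pow, mul_pow, e1, e2]
    generalize P ^ (2 * j + 1) = x1
    generalize b ^ (2 * j + 1) = x2
    generalize (P ^ 2) ^ j = x4
    generalize P ^ 2 = x3
    generalize (a ^ (2 * j + 1)) ^ j = x5
    simp only [mul_comm, mul_left_comm]
  have h2 : P ^ (2 * j + 2) * (P * (b * a ^ j)) ^ (2 * j + 1) ≤ P ^ (2 * j + 2) :=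
    mul_le_of_le_one_right' (pow_le_one₀ zero_le h1)
  have h3 : P ^ (2 * j + 1) ≤
      P ^ (2 * j + 1) * ((P ^ 2 * b ^ (2 * j + 1)) * (P ^ 2 * a ^ (2 * j + 1)) ^ j) :=
    le_mul_of_one_le_right' (one_le_mul_of_one_le_of_one_le hb (one_le_pow₀ ha))
  rw [← e] at h3
  have h4 : P ^ (2 * j + 2) < P ^ (2 * j + 1) := pow_lt_pow_right_of_lt_one₀ hP0 hP1 (by omega)
  exact absurd (h3.trans h2) (not_le.2 h4)

/-- **(L3b)** two nonzero points of `E₀[p]` are proportional. -/
theorem _root_.Fermat.Agent.HW.NodeData.inE0_prop (N : NodeData A W x0 y0 α β c) (I : IntData A W)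
    (D : PData A p) (hc : A.valuation c ≤ A.valuation (p : K)) {R R' : W.Point}
    (hR : InE0 A x0 R) (hR' : InE0 A x0 R') (hR0 : R ≠ 0) (hpR : p • R = 0) (hpR' : p • R' = 0) :
    ∃ j : ℕ, R' = j • R := by
  by_contra hcon
  push Not at hcon
  have hR'0 : R' ≠ 0 := by
    intro h
    exact hcon 0 (by rw [h, zero_smul])
  obtain ⟨j, hj1, hj⟩ := D.exists_half
  obtain ⟨ha1, ha⟩ := val_xc_of_torsion N I D hc hR hR0 hpR
  obtain ⟨hb1, hb⟩ := val_xc_of_torsion N I D hc hR' hR'0 hpR'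
  have hjp : j < p := by omega
  have hnot : xc R' ∉ lineX R j := by
    intro hmem
    obtain ⟨k, hk, hkx⟩ := Finset.mem_image.1 hmem
    have hk1 := Finset.mem_Icc.1 hk
    have h0 : k • R ≠ 0 := nsmul_ne_zero_of_not_dvd D.hp hR0 hpR (not_dvd_of_mem_Icc hjp hk)
    rcases (xc_eq_iff h0 hR'0).1 hkx with e | e
    · exact hcon k e.symm
    · apply hcon (p - k)
      have e1 : (p - k) • R + k • R = 0 := by
        rw [← add_smul, Nat.sub_add_cancel (by omega), hpR]
      rw [e] at e1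
      exact (add_neg_eq_zero.1 e1).symm
  have h := torsion_prod_bound I D (insert (xc R') (lineX R j)) (by
    intro x hx
    rcases Finset.mem_insert.1 hx with rfl | hx
    · exact ⟨R', hR'0, hpR', rfl⟩
    · exact mem_lineX_torsion D.hp hR0 hpR hjp hx)
  have e : ∏ x ∈ lineX R j, max 1 (A.valuation x) = A.valuation (xc R) ^ j := by
    rw [Finset.prod_congr rfl (fun x hx' => by
      rw [val_of_mem_lineX I D hR0 ha1 (n := j) hjp hx', max_eq_right ha1.le]),
      Finset.prod_const, card_lineX_half D.hp hR0 hpR hj]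
  rw [Finset.prod_insert hnot, e, max_eq_right hb1.le] at h
  have hP0 : 0 < A.valuation (p : K) := zero_lt_iff.2 ((A.valuation.ne_zero_iff).2 D.hp0)
  rw [hj] at ha hb
  rw [hj] at h hP0
  have hP1 := D.hpA
  rw [hj] at hP1
  exact num_false hP0 hP1 h ha hb

/-- **(L3)** `E₀ ∩ E[p^k]` is cyclic. -/
theorem _root_.Fermat.Agent.HW.NodeData.exists_generator_E0 (N : NodeData A W x0 y0 α β c)
    (I : IntData A W) (D : PData A p) (hc : A.valuation c ≤ A.valuation (p : K)) (k : ℕ) :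
    ∃ t : W.Point, InE0 A x0 t ∧ p ^ k • t = 0 ∧
      ∀ y : W.Point, InE0 A x0 y → p ^ k • y = 0 → ∃ j : ℕ, y = j • t := by
  let C : AddSubgroup W.Point :=
    { carrier := {y | InE0 A x0 y ∧ p ^ k • y = 0}
      zero_mem' := ⟨inE0_zero, smul_zero _⟩
      add_mem' := fun {a b} ha hb => ⟨N.inE0_add I ha.1 hb.1, by rw [smul_add, ha.2, hb.2, add_zero]⟩
      neg_mem' := fun {a} ha => ⟨inE0_neg ha.1, by rw [smul_neg, ha.2, _root_.neg_zero]⟩ }
  obtain ⟨t, ht, hgen⟩ := exists_generator C D.hp (k := k) (fun y hy => hy.2)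
    (fun R hR R' hR' hR0 hpR hpR' => N.inE0_prop I D hc hR.1 hR'.1 hR0 hpR hpR')
  exact ⟨t, ht.1, ht.2, fun y hy1 hy2 => hgen y ⟨hy1, hy2⟩⟩

end Fermat.Agent.ML.EOrd
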