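import Fermat.Agent.ML.EOrd.Main
import Fermat.Agent.ML.EOrd.Cyc

/-!
# ML / [E-ORD] = [E-STp] : the final statement

`W` an integral Weierstrass curve with multiplicative reduction at the odd prime `p`, `W[p]` irreducible (only used for
`det = χ`).  For every place `A ∣ p` there is a character `e` of the decomposition group `D_A`, with values `± 1`, trivial on inertia,
INDEPENDENT of `k`, such that  `(s₁ - χ(s₁) e(s₁)) (s₂ - e(s₂)) = 0`  on `W[p^k]`  for all `s₁, s₂ ∈ D_A`.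
-/

set_option autoImplicit false

namespace Fermat.Agent.ML.EOrd

open WeierstrassCurve WeierstrassCurve.Affine WeierstrassCurve.Affine.Point
open Fermat.Agent.S05 Fermat.Agent.HW Fermat.Agent.ML.ESide
open scoped WeierstrassCurve.Affine

local notation "Qb" => AlgebraicClosure ℚ
local notation "GQ" => (AlgebraicClosure ℚ ≃ₐ[ℚ] AlgebraicClosure ℚ)

/-- **[E-ORD] / [E-STp]**, operator form. -/
theorem strict_at_p (W : WeierstrassCurve ℤ) (hΔ : W.Δ ≠ 0) {p : ℕ} (hp : p.Prime) (hp2 : p ≠ 2)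
    (hirr : W.ModRepIsIrreducible p) (hpΔ : (p : ℤ) ∣ W.Δ) (hc₄ : ¬ (p : ℤ) ∣ W.c₄)
    (A : ValuationSubring Qb) (hA : A.LiesOverPrime p) :
    ∃ e : GQ → ℤ, (∀ s, e s = 1 ∨ e s = -1) ∧ (∀ s ∈ A.inertiaSubgroupIn ℚ, e s = 1) ∧
      (∀ s ∈ A.decompositionSubgroup ℚ, ∀ t ∈ A.decompositionSubgroup ℚ, e (s * t) = e s * e t) ∧
      ∀ k : ℕ, ∀ s₁ ∈ A.decompositionSubgroup ℚ, ∀ s₂ ∈ A.decompositionSubgroup ℚ,
        ∀ x : S58.EQ W, p ^ k • x = 0 → ∀ a : ℕ, (∀ μ : Qb, μ ^ (p ^ k) = 1 → s₁ μ = μ ^ a) →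
          s₁ • (s₂ • x - e s₂ • x) = ((a : ℤ) * e s₁) • (s₂ • x - e s₂ • x) := by
  classical
  have : Fact p.Prime := ⟨hp⟩
  obtain ⟨x0, y0, α, β, c, N, hvc, G⟩ := exists_nodeData_D W hp hp2 hΔ hpΔ hc₄ A hA
  refine ⟨eSign α, eSign_eq α, fun s hs => G.eSign_inertia hs,
    fun s hs t ht => G.eSign_mul hs ht, ?_⟩
  intro k s₁ h₁ s₂ h₂ x hx a ha
  rcases k with _ | k
  · rw [pow_zero, one_smul] at hx
    have h0 : s₂ • x - eSign α s₂ • x = 0 := by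
      rw [hx]
      show s₂ • (0 : (EQb W).Point) - eSign α s₂ • (0 : (EQb W).Point) = 0
      rw [gsmul_zero, zsmul_zero, sub_zero]
    rw [h0]
    show s₁ • (0 : (EQb W).Point) = ((a : ℤ) * eSign α s₁) • (0 : (EQb W).Point)
    rw [gsmul_zero, zsmul_zero]
  · obtain ⟨t, -, hmt, ht⟩ := N.exists_generator_E0 (intData_EQb W A)
      (AtP.pData hp hp2 hA) hvc (k + 1)
    exact strict_level hΔ hp2 hirr N G k ⟨t, hmt, fun y hy hE => ht y hE hy⟩ h₁ h₂ x hx a ha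

/-- the structural form: the line `C = E₀ ∩ W[p^k]`. -/
theorem exists_line_at_p (W : WeierstrassCurve ℤ) (hΔ : W.Δ ≠ 0) {p : ℕ} (hp : p.Prime)
    (hp2 : p ≠ 2) (hirr : W.ModRepIsIrreducible p) (hpΔ : (p : ℤ) ∣ W.Δ) (hc₄ : ¬ (p : ℤ) ∣ W.c₄)
    (A : ValuationSubring Qb) (hA : A.LiesOverPrime p) :
    ∃ e : GQ → ℤ, (∀ s, e s = 1 ∨ e s = -1) ∧ (∀ s ∈ A.inertiaSubgroupIn ℚ, e s = 1) ∧
      (∀ s ∈ A.decompositionSubgroup ℚ, ∀ t ∈ A.decompositionSubgroup ℚ, e (s * t) = e s * e t) ∧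
      ∀ k : ℕ, ∃ t : S58.EQ W, p ^ k • t = 0 ∧
        (∀ s ∈ A.decompositionSubgroup ℚ, ∀ x : S58.EQ W, p ^ k • x = 0 →
          ∃ j : ℕ, s • x - e s • x = j • t) ∧
        (∀ s ∈ A.decompositionSubgroup ℚ, ∃ j : ℕ, s • t = j • t) := by
  classical
  obtain ⟨x0, y0, α, β, c, N, hvc, G⟩ := exists_nodeData_D W hp hp2 hΔ hpΔ hc₄ A hA
  refine ⟨eSign α, eSign_eq α, fun s hs => G.eSign_inertia hs,
    fun s hs t ht => G.eSign_mul hs ht, ?_⟩
  intro k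
  have I := intData_EQb W A
  obtain ⟨t, htE, hmt, ht⟩ := N.exists_generator_E0 I (AtP.pData hp hp2 hA) hvc k
  have hodd : Odd (p ^ k) := (hp.odd_of_ne_two hp2).pow
  refine ⟨t, hmt, ?_, ?_⟩
  · intro s hs x hx
    refine ht _ (smul_sub_inE0 N G hodd (fun R S hR hS => N.inE0_add I hR hS) hs hx) ?_
    have h1 : p ^ k • (eSign α s • x) = 0 := by
      rw [← natCast_zsmul, ← mul_zsmul, mul_comm, mul_zsmul, natCast_zsmul, hx, zsmul_zero]
    have h2 : p ^ k • (s • x) = 0 := by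
      show p ^ k • (s • (x : (EQb W).Point)) = 0
      rw [← gsmul_nsmul, hx, gsmul_zero]
    rw [nsmul_sub, h2, h1, sub_zero]
  · intro s hs
    refine ht _ (inE0_smul G hs htE) ?_
    rw [← gsmul_nsmul, hmt, gsmul_zero]

end Fermat.Agent.ML.EOrd
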