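import Mathlib

/-!
# ML / [E-ORD] (L5) : the algebra

`M` a `2 × 2` matrix over a commutative ring, `t` a vector with `(M - e) w ∈ R t` for all `w`, `e² = 1`.  Then `M` acts on every
`y ∈ R t` by `det M * e`.  (`M = e + t ⊗ i`, `det M = 1 + e (i · t)`.)
-/

set_option autoImplicit false

namespace Fermat.Agent.ML.EOrd

variable {R : Type*} [CommRing R]

theorem mulVec_eq_of_line (M : Matrix (Fin 2) (Fin 2) R) (t y : Fin 2 → R) (e a : R)
    (he : e * e = 1) (hdet : M.det = a) (hy : ∃ j : R, y = j • t)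
    (hq : ∀ w : Fin 2 → R, ∃ i : R, M.mulVec w - e • w = i • t) :
    M.mulVec y = (a * e) • y := by
  obtain ⟨j, hj⟩ := hy
  obtain ⟨i0, hi0⟩ := hq ![1, 0]
  obtain ⟨i1, hi1⟩ := hq ![0, 1]
  rw [Matrix.det_fin_two] at hdet
  have a0 := congrFun hi0 0
  have a1 := congrFun hi0 1
  have b0 := congrFun hi1 0
  have b1 := congrFun hi1 1
  have d0 := congrFun hj 0
  have d1 := congrFun hj 1
  simp only [Matrix.mulVec, dotProduct, Fin.sum_univ_two, Pi.sub_apply, Pi.smul_apply, smul_eq_mul,
    Matrix.cons_val_zero, Matrix.cons_val_one, mul_one, mul_zero, add_zero, zero_add, sub_zero]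
    at a0 a1 b0 b1 d0 d1
  -- `M = e + t ⊗ (i0, i1)`
  have m00 : M 0 0 = e + i0 * t 0 := by linear_combination a0
  have m10 : M 1 0 = i0 * t 1 := by linear_combination a1
  have m01 : M 0 1 = i1 * t 0 := by linear_combination b0
  have m11 : M 1 1 = e + i1 * t 1 := by linear_combination b1
  have ha : a = 1 + e * (i0 * t 0 + i1 * t 1) := by
    rw [← hdet, m00, m10, m01, m11]
    linear_combination he
  funext n
  fin_cases n
  · simp only [Matrix.mulVec, dotProduct, Fin.sum_univ_two, Pi.smul_apply, smul_eq_mul,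
      Fin.zero_eta, Fin.isValue]
    rw [m00, m01, d0, d1, ha]
    linear_combination (-(j * t 0 * (i0 * t 0 + i1 * t 1))) * he
  · simp only [Matrix.mulVec, dotProduct, Fin.sum_univ_two, Pi.smul_apply, smul_eq_mul,
      Fin.mk_one, Fin.isValue]
    rw [m10, m11, d0, d1, ha]
    linear_combination (-(j * t 1 * (i0 * t 0 + i1 * t 1))) * he

end Fermat.Agent.ML.EOrd
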