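import Fermat.Agent.ML.EOrd.Defs

/-!
# ML / [E-ORD] (L4) : two points on the same branch of the node differ by a point of `E₀`

`X = x - x0`, `Y = y - y0`, `f = Y - αX`, `g = Y - βX`.  Two-point version of `HW.NodeData.branch`.
-/

set_option autoImplicit false
set_option linter.unusedVariables false

namespace Fermat.Agent.ML.EOrd

open WeierstrassCurve WeierstrassCurve.Affine WeierstrassCurve.Affine.Point
open Fermat.Agent.S05 Fermat.Agent.HW

variable {K : Type*} [Field K] {A : ValuationSubring K}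
  {W : WeierstrassCurve.Affine K} {x0 y0 α β c : K}

/-- `g (-P) = - f P` -/
theorem g_neg [DecidableEq K] (N : NodeData A W x0 y0 α β c) {P : W.Point} (hP : P ≠ 0) :
    (yc (-P) - y0) - β * (xc (-P) - x0) = -((yc P - y0) - α * (xc P - x0)) := by
  rw [yc_neg hP, xc_neg, negY]
  linear_combination (-1 : K) * N.hy - (xc P - x0) * N.hsum

/-- `f (-P) = - g P` -/
theorem f_neg [DecidableEq K] (N : NodeData A W x0 y0 α β c) {P : W.Point} (hP : P ≠ 0) :
    (yc (-P) - y0) - α * (xc (-P) - x0) = -((yc P - y0) - β * (xc P - x0)) := by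
  rw [yc_neg hP, xc_neg, negY]
  linear_combination (-1 : K) * N.hy - (xc P - x0) * N.hsum

variable [DecidableEq K]

/-- two points on the branch `v g < v X` with the same `v X`. -/
theorem branch2 (N : NodeData A W x0 y0 α β c) {P P' : W.Point} (hP : P ≠ 0) (hP' : P' ≠ 0)
    (hX : A.valuation (xc P - x0) < 1)
    (hXX : A.valuation (xc P' - x0) = A.valuation (xc P - x0))
    (hg : A.valuation ((yc P - y0) - β * (xc P - x0)) < A.valuation (xc P - x0))
    (hg' : A.valuation ((yc P' - y0) - β * (xc P' - x0)) < A.valuation (xc P - x0)) :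
    P' = P ∨ 1 ≤ A.valuation (xc (P' - P) - x0) := by
  obtain ⟨X, hXdef⟩ : ∃ X, X = xc P - x0 := ⟨_, rfl⟩
  obtain ⟨Y, hYdef⟩ : ∃ Y, Y = yc P - y0 := ⟨_, rfl⟩
  obtain ⟨X', hX'def⟩ : ∃ X', X' = xc P' - x0 := ⟨_, rfl⟩
  obtain ⟨Y', hY'def⟩ : ∃ Y', Y' = yc P' - y0 := ⟨_, rfl⟩
  obtain ⟨g, hgdef⟩ : ∃ g, g = Y - β * X := ⟨_, rfl⟩
  obtain ⟨g', hg'def⟩ : ∃ g', g' = Y' - β * X' := ⟨_, rfl⟩
  rw [← hXdef, ← hYdef, ← hgdef] at hg
  rw [← hXdef, ← hX'def, ← hY'def, ← hg'def] at hg'
  rw [← hXdef] at hX
  rw [← hXdef, ← hX'def] at hXX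
  set v := A.valuation with hvdef
  have hβα : v (β - α) = 1 := by rw [← N.vαβ, ← Valuation.map_neg, neg_sub]
  have hXpos : 0 < v X := lt_of_le_of_lt zero_le hg
  by_cases hxx : xc P' = xc P
  · rcases (xc_eq_iff hP' hP).1 hxx with h | h
    · exact Or.inl h
    · exfalso
      have h1 : g' = -(Y - α * X) := by
        rw [hg'def, hY'def, hX'def, h, g_neg N hP, hYdef, hXdef]
      have h2 : Y - α * X = g + (β - α) * X := by rw [hgdef]; ring
      have h3 : v (Y - α * X) = v X := by
        rw [h2, Valuation.map_add_eq_of_lt_right, map_mul, hβα, one_mul]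
        rw [map_mul, hβα, one_mul]; exact hg
      rw [h1, Valuation.map_neg, h3] at hg'
      exact lt_irrefl _ hg'
  · right
    obtain ⟨l, hl1, hl2⟩ := Fermat.Agent.S13.xc_sub_of_ne hP' hP hxx
    obtain ⟨D, hDdef⟩ : ∃ D, D = X' - X := ⟨_, rfl⟩
    have hD : xc P' - xc P = D := by rw [hDdef, hX'def, hXdef]; ring
    have hD0 : D ≠ 0 := by rw [← hD]; exact sub_ne_zero.2 hxx
    have hDpos : 0 < v D := zero_lt_iff.2 ((v.ne_zero_iff).2 hD0)
    rw [hD] at hl1
    have hnum : yc P' + yc P + W.a₁ * xc P + W.a₃ = Y' + Y + W.a₁ * X := by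
      rw [hY'def, hYdef, hXdef]
      linear_combination N.hy
    rw [hnum] at hl1
    have hA : (l - α) * D = (g + g') + (β - α) * X' := by
      rw [hg'def, hgdef, sub_mul, hl1, hDdef]
      linear_combination X * N.hsum
    have hB : (l - β) * D = (g + g') + (β - α) * X := by
      rw [hg'def, hgdef, sub_mul, hl1, hDdef]
      linear_combination X * N.hsum
    have hgg : v (g + g') < v X := Valuation.map_add_lt _ hg hg'
    have hvA : v ((l - α) * D) = v X := by
      rw [hA, Valuation.map_add_eq_of_lt_right, map_mul, hβα, one_mul, hXX]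
      rw [map_mul, hβα, one_mul, hXX]; exact hgg
    have hvB : v ((l - β) * D) = v X := by
      rw [hB, Valuation.map_add_eq_of_lt_right, map_mul, hβα, one_mul]
      rw [map_mul, hβα, one_mul]; exact hgg
    have hDX : v D ≤ v X := by
      rw [hDdef]; exact Valuation.map_sub_le _ hXX.le le_rfl
    have hone : ∀ z : K, v (z * D) = v X → 1 ≤ v z := by
      intro z hz
      by_contra hcon
      rw [not_le] at hcon
      rw [map_mul] at hz
      have : v z * v D < v X := by
        calc v z * v D < 1 * v D := by gcongr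
          _ = v D := one_mul _
          _ ≤ v X := hDX
      exact absurd hz this.ne
    have h1 := hone _ hvA
    have h2 := hone _ hvB
    have hXR : xc (P' - P) - x0 = (l - α) * (l - β) - (X + X') := by
      rw [hl2, hX'def, hXdef]
      linear_combination l * N.hsum - N.hprod
    have h3 : v (X + X') < 1 := Valuation.map_add_lt _ hX (by rw [hXX]; exact hX)
    have h4 : 1 ≤ v ((l - α) * (l - β)) := by
      rw [map_mul]; exact one_le_mul_of_one_le_of_one_le h1 h2
    rw [hXR, Valuation.map_sub_eq_of_lt_left _ (lt_of_lt_of_le h3 h4)]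
    exact h4

/-- `v g < v f` implies `v X = v f`. -/
theorem val_X_eq_of_lt (N : NodeData A W x0 y0 α β c) {X Y : K}
    (h : A.valuation (Y - β * X) < A.valuation (Y - α * X)) :
    A.valuation X = A.valuation (Y - α * X) := by
  have hβα : A.valuation (β - α) = 1 := by rw [← N.vαβ, ← Valuation.map_neg, neg_sub]
  have e2 : (β - α) * X = (Y - α * X) - (Y - β * X) := by ring
  have h1 : A.valuation ((β - α) * X) = A.valuation X := by rw [map_mul, hβα, one_mul]
  rw [← h1, e2]
  exact Valuation.map_sub_eq_of_lt_left _ h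

/-- **(L4), abstract form.**  `P'` has the same `v X`, `v f`, `v g` as `P`; `P` of odd order `m`;
`E₀ ∩ E[m]` closed under addition.  Then `P' - P ∈ E₀`. -/
theorem sub_inE0 (N : NodeData A W x0 y0 α β c) {m : ℕ} (hm : Odd m)
    (hadd : ∀ R S : W.Point, InE0 A x0 R → InE0 A x0 S → InE0 A x0 (R + S))
    {P P' : W.Point} (hmP : m • P = 0) (hmP' : m • P' = 0) (h0 : P = 0 ↔ P' = 0)
    (hXX : A.valuation (xc P' - x0) = A.valuation (xc P - x0))
    (hff : A.valuation ((yc P' - y0) - α * (xc P' - x0))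
      = A.valuation ((yc P - y0) - α * (xc P - x0)))
    (hgg : A.valuation ((yc P' - y0) - β * (xc P' - x0))
      = A.valuation ((yc P - y0) - β * (xc P - x0))) :
    InE0 A x0 (P' - P) := by
  by_cases hP : P = 0
  · have hP' := h0.1 hP
    rw [hP, hP', sub_zero]; exact inE0_zero
  have hP' : P' ≠ 0 := fun h => hP (h0.2 h)
  -- multiples
  have hnsmul : ∀ (n : ℕ) (R : W.Point), InE0 A x0 R → InE0 A x0 (n • R) := by
    intro n R hR
    induction n with
    | zero => rw [zero_smul]; exact inE0_zero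
    | succ n ih => rw [succ_nsmul]; exact hadd _ _ ih hR
  have hhalf : ∀ R : W.Point, m • R = 0 → InE0 A x0 (R + R) → InE0 A x0 R := by
    intro R hmR h2
    obtain ⟨k, hk⟩ := hm
    have e : R = (k + 1) • (R + R) := by
      have h1 : (k + 1) • (R + R) = m • R + R := by
        rw [hk, ← two_nsmul, ← mul_nsmul']
        have e2 : (k + 1) * 2 = (2 * k + 1) + 1 := by ring
        rw [e2, add_nsmul _ (2 * k + 1) 1, one_nsmul]
      rw [h1, hmR, zero_add]
    rw [e]; exact hnsmul _ _ h2
  have hsub : InE0 A x0 P → InE0 A x0 P' → InE0 A x0 (P' - P) := by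
    intro h1 h2
    rw [sub_eq_add_neg]; exact hadd _ _ h2 (inE0_neg h1)
  have h2ne : ∀ R : W.Point, R ≠ 0 → m • R = 0 → R + R ≠ 0 := by
    intro R hR hmR h
    apply hR
    have h2 : 2 • R = 0 := by rw [two_smul]; exact h
    obtain ⟨k, hk⟩ := hm
    rw [hk, add_smul, mul_comm, mul_smul, h2, smul_zero, zero_add, one_smul] at hmR
    exact hmR
  by_cases hX : A.valuation (xc P - x0) < 1
  · rcases lt_trichotomy (A.valuation ((yc P - y0) - β * (xc P - x0)))
      (A.valuation ((yc P - y0) - α * (xc P - x0))) with h | h | h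
    · have hXf := val_X_eq_of_lt N h
      rcases branch2 N hP hP' hX hXX (by rw [hXf]; exact h) (by rw [hgg, hXf]; exact h) with h1 | h1
      · left; rw [h1, sub_self]
      · exact Or.inr h1
    · -- middle
      have m1 : InE0 A x0 P :=
        hhalf P hmP (Or.inr (N.middle hP (h2ne P hP hmP) hX h.symm))
      have m2 : InE0 A x0 P' :=
        hhalf P' hmP' (Or.inr (N.middle hP' (h2ne P' hP' hmP') (by rw [hXX]; exact hX)
          (by rw [hff, hgg]; exact h.symm)))
      exact hsub m1 m2
    · have hXf := val_X_eq_of_lt N.symm h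
      rcases branch2 N.symm hP hP' hX hXX (by rw [hXf]; exact h) (by rw [hff, hXf]; exact h)
        with h1 | h1
      · left; rw [h1, sub_self]
      · exact Or.inr h1
  · rw [not_lt] at hX
    exact hsub (Or.inr hX) (Or.inr (by rw [hXX]; exact hX))

end Fermat.Agent.ML.EOrd
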