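import Fermat.Agent.HW.Pow.Node
import Fermat.Agent.HW.AtP.Bound

/-!
# ML / [E-ORD] : `W` multiplicative at `p`, definitions

`E₀` = points whose reduction is not the node (`0`, the non integral points, the integral points with
`v (x - x0) = 1`).
-/

set_option autoImplicit false

namespace Fermat.Agent.ML.EOrd

open WeierstrassCurve WeierstrassCurve.Affine WeierstrassCurve.Affine.Point
open Fermat.Agent.S05 Fermat.Agent.HW

variable {K : Type*} [Field K] {W : WeierstrassCurve.Affine K}

/-- the point `P` does not reduce to the node `x0`. -/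
def InE0 (A : ValuationSubring K) (x0 : K) (P : W.Point) : Prop :=
  P = 0 ∨ 1 ≤ A.valuation (xc P - x0)

variable {A : ValuationSubring K} {x0 : K}

theorem inE0_zero : InE0 A x0 (0 : W.Point) := Or.inl rfl

theorem inE0_neg [DecidableEq K] {P : W.Point} (h : InE0 A x0 P) : InE0 A x0 (-P) := by
  rcases h with h | h
  · left; rw [h, _root_.neg_zero]
  · right; rwa [xc_neg]

theorem inE0_neg_iff [DecidableEq K] {P : W.Point} : InE0 A x0 (-P) ↔ InE0 A x0 P :=
  ⟨fun h => by simpa using inE0_neg h, inE0_neg⟩

end Fermat.Agent.ML.EOrd
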