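import Fermat.Agent.HW.Pow.Node

/-!
# ML / EOrd : the line through `P`, `Q`, `-(P+Q)` in node coordinates

`W` with `HW.NodeData A W x0 y0 α β c`; `X = x - x0`, `Y = y - y0`, `f = Y - αX`, `g = Y - βX`,
`f g = X³ + c`.  For `P, Q, P + Q ≠ 0` there are `l, n` with `Y = l X + n` at `P`, `Q`, `-(P+Q)` and
`e₁ = (l-α)(l-β)`, `e₂ = -n(2l-α-β)`, `e₃ = n² - c`, hence `∏ f = n³ - c (l-α)³`,
`∏ g = n³ - c (l-β)³`.
-/

set_option autoImplicit false

namespace Fermat.Agent.ML.EOrd

open WeierstrassCurve WeierstrassCurve.Affine WeierstrassCurve.Affine.Point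
open Fermat.Agent.S05 Fermat.Agent.HW

variable {K : Type*} [Field K] [DecidableEq K] {W : WeierstrassCurve.Affine K}

/-- raw form of the line through `P`, `Q`, `-(P+Q)` (chord or tangent). -/
theorem exists_line_raw {P Q : W.Point} (hP : P ≠ 0) (hQ : Q ≠ 0) (hPQ : P + Q ≠ 0) :
    ∃ l : K, yc Q = l * (xc Q - xc P) + yc P ∧
      yc (-(P + Q)) = l * (xc (P + Q) - xc P) + yc P ∧
      xc P + xc Q + xc (P + Q) = l ^ 2 + W.a₁ * l - W.a₂ ∧
      xc P * xc Q + xc P * xc (P + Q) + xc Q * xc (P + Q)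
        = 2 * xc P * l ^ 2 + (W.a₁ * xc P - 2 * yc P - W.a₃) * l + (-W.a₁ * yc P + W.a₄) ∧
      -(xc P * xc Q * xc (P + Q))
        = -xc P ^ 2 * l ^ 2 + (2 * xc P * yc P + W.a₃ * xc P) * l
          - (yc P ^ 2 + W.a₃ * yc P - W.a₆) := by
  cases P with
  | zero => exact absurd rfl hP
  | some x₁ y₁ h₁ =>
    cases Q with
    | zero => exact absurd rfl hQ
    | some x₂ y₂ h₂ =>
      have hxy : ¬(x₁ = x₂ ∧ y₁ = W.negY x₂ y₂) := by
        rintro ⟨hx, hy⟩
        exact hPQ (add_of_Y_eq hx hy)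
      have hadd := add_some (W := W) hxy (h₁ := h₁) (h₂ := h₂)
      set l := W.slope x₁ x₂ y₁ y₂ with hl
      have hpoly := addPolynomial_slope h₁.1 h₂.1 hxy
      rw [addPolynomial_eq, neg_inj, Cubic.prod_X_sub_C_eq, Cubic.toPoly_injective] at hpoly
      have hb := congrArg Cubic.b hpoly
      have hc := congrArg Cubic.c hpoly
      have hd := congrArg Cubic.d hpoly
      simp only at hb hc hd
      refine ⟨l, ?_, ?_, ?_, ?_, ?_⟩
      · simp only [xc_some, yc_some]
        by_cases hx : x₁ = x₂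
        · have hy : y₁ ≠ W.negY x₂ y₂ := fun h => hxy ⟨hx, h⟩
          have := Y_eq_of_Y_ne h₁.1 h₂.1 hx hy
          rw [hx, this]; ring
        · rw [hl, slope_of_X_ne hx]
          have : x₁ - x₂ ≠ 0 := sub_ne_zero.2 hx
          field_simp
          ring
      · rw [hadd]
        simp only [xc_some, yc_some, neg_some, addY, negY_negY, negAddY]
        rfl
      · rw [hadd]
        simp only [xc_some, addX]
        ring
      · rw [hadd]
        simp only [xc_some, yc_some]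
        rw [← hl] at hc
        linear_combination -hc
      · rw [hadd]
        simp only [xc_some, yc_some]
        rw [← hl] at hd
        linear_combination -hd

variable {A : ValuationSubring K} {x0 y0 α β c : K}

/-- the line in node coordinates. -/
theorem exists_line (N : NodeData A W x0 y0 α β c) {P Q : W.Point} (hP : P ≠ 0) (hQ : Q ≠ 0)
    (hPQ : P + Q ≠ 0) :
    ∃ l n : K,
      yc P - y0 = l * (xc P - x0) + n ∧ yc Q - y0 = l * (xc Q - x0) + n ∧
      yc (-(P + Q)) - y0 = l * (xc (P + Q) - x0) + n ∧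
      (xc P - x0) + (xc Q - x0) + (xc (P + Q) - x0) = (l - α) * (l - β) ∧
      (xc P - x0) * (xc Q - x0) + (xc P - x0) * (xc (P + Q) - x0)
        + (xc Q - x0) * (xc (P + Q) - x0) = -(n * (2 * l - α - β)) ∧
      (xc P - x0) * (xc Q - x0) * (xc (P + Q) - x0) = n ^ 2 - c := by
  obtain ⟨l, h1, h2, e1, e2, e3⟩ := exists_line_raw hP hQ hPQ
  refine ⟨l, (yc P - y0) - l * (xc P - x0), by ring, by rw [h1]; ring, by rw [h2]; ring, ?_, ?_, ?_⟩
  · rw [N.a₂_eq, N.a₁_eq] at e1
    linear_combination e1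
  · rw [N.a₂_eq, N.a₁_eq] at e1
    rw [N.a₄_eq, N.a₃_eq, N.a₁_eq] at e2
    linear_combination e2 - 2 * x0 * e1
  · rw [N.a₂_eq, N.a₁_eq] at e1
    rw [N.a₄_eq, N.a₃_eq, N.a₁_eq] at e2
    rw [N.a₆_eq, N.a₃_eq] at e3
    linear_combination -e3 - x0 * e2 + x0 ^ 2 * e1

end Fermat.Agent.ML.EOrd
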