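import Mathlib

/-!
# ML / EOrd : valuation lemmas for three roots `X₁, X₂, X₃` of
`X³ - (l-α)(l-β) X² - n(2l-α-β) X - (n² - c)`
-/

set_option autoImplicit false

namespace Fermat.Agent.ML.EOrd

variable {K : Type*} [Field K] {Γ : Type*} [LinearOrderedCommGroupWithZero Γ] (v : Valuation K Γ)

theorem sq_le_max_of_sub {a b : K} (h : v (a - b) = 1) :
    v a ^ 2 ≤ max 1 (v (a * b)) ∧ v b ^ 2 ≤ max 1 (v (a * b)) := by
  rcases lt_trichotomy (v a) (v b) with hab | hab | hab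
  · have h1 : v (a - b) = v b := Valuation.map_sub_eq_of_lt_right _ hab
    rw [h] at h1
    rw [← h1] at hab ⊢
    exact ⟨le_max_of_le_left (pow_le_one₀ zero_le hab.le), le_max_of_le_left (by simp)⟩
  · rw [map_mul, hab, sq]
    exact ⟨le_max_right _ _, le_max_right _ _⟩
  · have h1 : v (a - b) = v a := Valuation.map_sub_eq_of_lt_left _ hab
    rw [h] at h1
    rw [← h1] at hab ⊢
    exact ⟨le_max_of_le_left (by simp), le_max_of_le_left (pow_le_one₀ zero_le hab.le)⟩

theorem le_of_sq_le_sq' {a b : Γ} (h : a ^ 2 ≤ b ^ 2) : a ≤ b := by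
  by_contra hcon
  rw [not_le] at hcon
  have : b ^ 2 < a ^ 2 := pow_lt_pow_left₀ hcon zero_le (by norm_num)
  exact absurd h (not_le.2 this)

variable {X1 X2 X3 l n α β c : K}

/-- two roots of valuation `≥ 1` force the third one to have valuation `≥ 1`. -/
theorem one_le_of_vieta
    (h1 : X1 + X2 + X3 = (l - α) * (l - β))
    (h2 : X1 * X2 + X1 * X3 + X2 * X3 = -(n * (2 * l - α - β)))
    (h3 : X1 * X2 * X3 = n ^ 2 - c)
    (hαβ : v (α - β) = 1) (hc : v c < 1) (hX1 : 1 ≤ v X1) (hX2 : 1 ≤ v X2) : 1 ≤ v X3 := by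
  by_contra hcon
  rw [not_le] at hcon
  have ha0 : 0 < v X1 := lt_of_lt_of_le zero_lt_one hX1
  have hb0 : 0 < v X2 := lt_of_lt_of_le zero_lt_one hX2
  have hab : 1 ≤ v X1 * v X2 := one_le_mul_of_one_le_of_one_le hX1 hX2
  have ha : v X1 ≤ v X1 * v X2 := le_mul_of_one_le_right' hX2
  have hb : v X2 ≤ v X1 * v X2 := le_mul_of_one_le_left' hX1
  have hab0 : 0 < v X1 * v X2 := lt_of_lt_of_le zero_lt_one hab
  -- `v e₂ = a b`
  have h13 : v (X1 * X3) < v X1 * v X2 := by
    rw [map_mul]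
    calc v X1 * v X3 < v X1 * 1 := by gcongr
      _ = v X1 := mul_one _
      _ ≤ _ := ha
  have h23 : v (X2 * X3) < v X1 * v X2 := by
    rw [map_mul]
    calc v X2 * v X3 < v X2 * 1 := by gcongr
      _ = v X2 := mul_one _
      _ ≤ _ := hb
  have he2 : v (X1 * X2 + X1 * X3 + X2 * X3) = v X1 * v X2 := by
    rw [add_assoc, Valuation.map_add_eq_of_lt_left, map_mul]
    rw [map_mul]
    exact Valuation.map_add_lt _ h13 h23
  rw [h2, Valuation.map_neg, map_mul] at he2
  -- `v e₁ ≤ a b`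
  have he1 : v (X1 + X2 + X3) ≤ v X1 * v X2 :=
    Valuation.map_add_le _ (Valuation.map_add_le _ ha hb) (hcon.le.trans hab)
  rw [h1] at he1
  have hsub : v ((l - α) - (l - β)) = 1 := by
    rw [← hαβ, ← Valuation.map_neg]; congr 1; ring
  obtain ⟨hA, hB⟩ := sq_le_max_of_sub v hsub
  have hmax : max 1 (v ((l - α) * (l - β))) ≤ v X1 * v X2 := max_le hab he1
  -- `M`
  obtain ⟨M, hM1, hM2, hML⟩ : ∃ M : Γ, 1 ≤ M ∧ M ^ 2 ≤ v X1 * v X2 ∧ v (2 * l - α - β) ≤ M := by
    refine ⟨max (v (l - α)) (v (l - β)), ?_, ?_, ?_⟩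
    · rw [← hsub]; exact Valuation.map_sub _ _ _
    · rcases le_total (v (l - α)) (v (l - β)) with h | h
      · rw [max_eq_right h]; exact hB.trans hmax
      · rw [max_eq_left h]; exact hA.trans hmax
    · have : 2 * l - α - β = (l - α) + (l - β) := by ring
      rw [this]; exact Valuation.map_add _ _ _
  have hM0 : 0 < M := lt_of_lt_of_le zero_lt_one hM1
  have hMn : M ≤ v n := by
    by_contra hlt
    rw [not_le] at hlt
    have : v n * v (2 * l - α - β) < M ^ 2 := by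
      calc v n * v (2 * l - α - β) ≤ v n * M := by gcongr
        _ < M * M := by gcongr
        _ = M ^ 2 := (sq M).symm
    rw [he2] at this
    exact absurd hM2 (not_le.2 this)
  have hn1 : 1 ≤ v n := hM1.trans hMn
  have hn0 : 0 < v n := lt_of_lt_of_le zero_lt_one hn1
  have hn2 : v (n ^ 2 - c) = v n ^ 2 := by
    rw [Valuation.map_sub_eq_of_lt_left, map_pow]
    rw [map_pow]
    exact lt_of_lt_of_le hc (one_le_pow₀ hn1)
  have he3 : v (X1 * X2 * X3) < v X1 * v X2 := by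
    rw [map_mul, map_mul]
    calc v X1 * v X2 * v X3 < v X1 * v X2 * 1 := by gcongr
      _ = _ := mul_one _
  rw [h3, hn2, ← he2] at he3
  have : v n * v (2 * l - α - β) ≤ v n ^ 2 := by
    calc v n * v (2 * l - α - β) ≤ v n * M := by gcongr
      _ ≤ v n * v n := by gcongr
      _ = v n ^ 2 := (sq _).symm
  exact absurd this (not_le.2 he3)

/-- all three roots of valuation `≥ 1`: the line does not pass through the node. -/
theorem le_val_n_of_vieta
    (h1 : X1 + X2 + X3 = (l - α) * (l - β))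
    (h3 : X1 * X2 * X3 = n ^ 2 - c)
    (hαβ : v (α - β) = 1) (hc : v c < 1) (hX1 : 1 ≤ v X1) (hX2 : 1 ≤ v X2) (hX3 : 1 ≤ v X3) :
    1 ≤ v n ∧ v (l - α) ≤ v n ∧ v (l - β) ≤ v n := by
  have hab : 1 ≤ v X1 * v X2 := one_le_mul_of_one_le_of_one_le hX1 hX2
  have habc : 1 ≤ v X1 * v X2 * v X3 := one_le_mul_of_one_le_of_one_le hab hX3
  have ha : v X1 ≤ v X1 * v X2 * v X3 :=
    (le_mul_of_one_le_right' hX2).trans (le_mul_of_one_le_right' hX3)
  have hb : v X2 ≤ v X1 * v X2 * v X3 :=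
    (le_mul_of_one_le_left' hX1).trans (le_mul_of_one_le_right' hX3)
  have hc' : v X3 ≤ v X1 * v X2 * v X3 := le_mul_of_one_le_left' hab
  have he3 : v (n ^ 2 - c) = v X1 * v X2 * v X3 := by rw [← h3, map_mul, map_mul]
  have hn2 : v n ^ 2 = v X1 * v X2 * v X3 := by
    have e : n ^ 2 = (n ^ 2 - c) + c := by ring
    rw [← map_pow, e, Valuation.map_add_eq_of_lt_left, he3]
    rw [he3]; exact lt_of_lt_of_le hc habc
  have he1 : v ((l - α) * (l - β)) ≤ v n ^ 2 := by
    rw [← h1, hn2]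
    exact Valuation.map_add_le _ (Valuation.map_add_le _ ha hb) hc'
  have hsub : v ((l - α) - (l - β)) = 1 := by
    rw [← hαβ, ← Valuation.map_neg]; congr 1; ring
  obtain ⟨hA, hB⟩ := sq_le_max_of_sub v hsub
  have hmax : max 1 (v ((l - α) * (l - β))) ≤ v n ^ 2 := max_le (by rw [hn2]; exact habc) he1
  refine ⟨le_of_sq_le_sq' (by rw [one_pow, hn2]; exact habc), le_of_sq_le_sq' (hA.trans hmax),
    le_of_sq_le_sq' (hB.trans hmax)⟩

end Fermat.Agent.ML.EOrd
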