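import Fermat.Agent.ML.EOrd.Branch
import Fermat.Agent.ML.EOrd.Line
import Fermat.Agent.ML.EOrd.Val

/-!
# ML / [E-ORD] (L2) : `E₀` is a subgroup and `u = f/g : E₀ → Aˣ/(1 + cA)` is a homomorphism
-/

set_option autoImplicit false
set_option linter.unusedVariables false

namespace Fermat.Agent.ML.EOrd

open WeierstrassCurve WeierstrassCurve.Affine WeierstrassCurve.Affine.Point
open Fermat.Agent.S05 Fermat.Agent.HW

section abs

variable {K : Type*} [Field K] {Γ : Type*} [LinearOrderedCommGroupWithZero Γ] (v : Valuation K Γ)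

/-- `f g = X³ + c`, `f - g = (β-α) X`, `1 ≤ v X` ⟹ `v f = v g`, `v g ² = v X ³`. -/
theorem val_fg {X f g α β c : K} (hfg : f * g = X ^ 3 + c) (hsub : f - g = (β - α) * X)
    (hαβ : v (α - β) = 1) (hc : v c < 1) (hX : 1 ≤ v X) :
    v f = v g ∧ v g ^ 2 = v X ^ 3 := by
  have hβα : v (β - α) = 1 := by rw [← hαβ, ← Valuation.map_neg, neg_sub]
  have hX0 : v X ≠ 0 := (lt_of_lt_of_le zero_lt_one hX).ne'
  have h1 : v f * v g = v X ^ 3 := by
    rw [← map_mul, hfg, Valuation.map_add_eq_of_lt_left, map_pow]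
    rw [map_pow]; exact lt_of_lt_of_le hc (one_le_pow₀ hX)
  have h2 : v (f - g) = v X := by rw [hsub, map_mul, hβα, one_mul]
  have hXsq : v X ≤ v X ^ 2 := by
    calc v X = v X * 1 := (mul_one _).symm
      _ ≤ v X * v X := by gcongr
      _ = v X ^ 2 := (sq _).symm
  have heq : v f = v g := by
    rcases lt_trichotomy (v f) (v g) with h | h | h
    · exfalso
      have h3 : v (f - g) = v g := Valuation.map_sub_eq_of_lt_right _ h
      rw [h2] at h3
      rw [← h3] at h1 h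
      have h4 : v f = v X ^ 2 := by
        apply mul_right_cancel₀ hX0
        rw [h1]; exact pow_succ _ 2
      rw [h4] at h
      exact absurd hXsq (not_le.2 h)
    · exact h
    · exfalso
      have h3 : v (f - g) = v f := Valuation.map_sub_eq_of_lt_left _ h
      rw [h2] at h3
      rw [← h3] at h1 h
      have h4 : v g = v X ^ 2 := by
        apply mul_left_cancel₀ hX0
        rw [h1]; exact pow_succ' _ 2
      rw [h4] at h
      exact absurd hXsq (not_le.2 h)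
  refine ⟨heq, ?_⟩
  rw [← h1, heq, sq]

theorem key_alg {F1 F2 F3 G1 G2 G3 a b : K} (g1 : G1 ≠ 0) (g2 : G2 ≠ 0) (g3 : G3 ≠ 0)
    (I1 : F1 * F2 * G3 = a) (I2 : G1 * G2 * F3 = b) :
    (F3 / G3 - F1 / G1 * (F2 / G2)) * (G1 * G2 * G3) = b - a := by
  field_simp
  linear_combination I2 - I1

end abs

variable {K : Type*} [Field K] [DecidableEq K] {A : ValuationSubring K}
  {W : WeierstrassCurve.Affine K} {x0 y0 α β c : K}

/-- **(L2a)** `E₀` is closed under addition. -/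
theorem _root_.Fermat.Agent.HW.NodeData.inE0_add (N : NodeData A W x0 y0 α β c) (I : IntData A W)
    {P Q : W.Point} (hP : InE0 A x0 P) (hQ : InE0 A x0 Q) : InE0 A x0 (P + Q) := by
  by_cases hP0 : P = 0
  · rwa [hP0, zero_add]
  by_cases hQ0 : Q = 0
  · rwa [hQ0, add_zero]
  by_cases hPQ : P + Q = 0
  · exact Or.inl hPQ
  have hP1 := hP.resolve_left hP0
  have hQ1 := hQ.resolve_left hQ0
  obtain ⟨l, n, -, -, -, e1, e2, e3⟩ := exists_line N hP0 hQ0 hPQ
  exact Or.inr (one_le_of_vieta A.valuation e1 e2 e3 N.vαβ N.vc hP1 hQ1)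

theorem _root_.Fermat.Agent.HW.NodeData.inE0_nsmul (N : NodeData A W x0 y0 α β c)
    (I : IntData A W) {P : W.Point} (hP : InE0 A x0 P) (k : ℕ) : InE0 A x0 (k • P) := by
  induction k with
  | zero => rw [zero_smul]; exact inE0_zero
  | succ k ih => rw [succ_nsmul]; exact N.inE0_add I ih hP

/-- the function `u = f / g` (`1` at the origin). -/
def uu (x0 y0 α β : K) (P : W.Point) : K :=
  if P = 0 then 1
  else ((yc P - y0) - α * (xc P - x0)) / ((yc P - y0) - β * (xc P - x0))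

theorem uu_zero : uu x0 y0 α β (0 : W.Point) = 1 := if_pos rfl

theorem uu_of_ne {P : W.Point} (hP : P ≠ 0) : uu x0 y0 α β P =
    ((yc P - y0) - α * (xc P - x0)) / ((yc P - y0) - β * (xc P - x0)) := if_neg hP

theorem fg_facts (N : NodeData A W x0 y0 α β c) {P : W.Point} (hP : P ≠ 0)
    (hX : 1 ≤ A.valuation (xc P - x0)) :
    A.valuation ((yc P - y0) - α * (xc P - x0)) = A.valuation ((yc P - y0) - β * (xc P - x0)) ∧
      A.valuation ((yc P - y0) - β * (xc P - x0)) ^ 2 = A.valuation (xc P - x0) ^ 3 ∧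
      (yc P - y0) - β * (xc P - x0) ≠ 0 ∧ (yc P - y0) - α * (xc P - x0) ≠ 0 := by
  obtain ⟨h1, h2⟩ := val_fg A.valuation (N.eqn hP)
    (by ring : ((yc P - y0) - α * (xc P - x0)) - ((yc P - y0) - β * (xc P - x0))
      = (β - α) * (xc P - x0)) N.vαβ N.vc hX
  have hX0 : A.valuation (xc P - x0) ≠ 0 := (lt_of_lt_of_le zero_lt_one hX).ne'
  have hg : A.valuation ((yc P - y0) - β * (xc P - x0)) ≠ 0 := by
    intro h
    rw [h] at h2
    exact pow_ne_zero 3 hX0 (by rw [← h2]; simp)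
  refine ⟨h1, h2, (A.valuation.ne_zero_iff).1 hg, (A.valuation.ne_zero_iff).1 (by rw [h1]; exact hg)⟩

theorem val_uu (N : NodeData A W x0 y0 α β c) {P : W.Point} (hP : InE0 A x0 P) :
    A.valuation (uu x0 y0 α β P) = 1 := by
  by_cases hP0 : P = 0
  · rw [hP0, uu_zero, map_one]
  obtain ⟨h1, -, h3, -⟩ := fg_facts N hP0 (hP.resolve_left hP0)
  rw [uu_of_ne hP0, map_div₀, h1]
  exact div_self ((A.valuation.ne_zero_iff).2 h3)

/-- `v (u - 1)² · v X = 1`. -/
theorem val_uu_sub_one (N : NodeData A W x0 y0 α β c) {P : W.Point} (hP : P ≠ 0)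
    (hX : 1 ≤ A.valuation (xc P - x0)) :
    A.valuation (uu x0 y0 α β P - 1) ^ 2 * A.valuation (xc P - x0) = 1 := by
  obtain ⟨h1, h2, h3, -⟩ := fg_facts N hP hX
  have hβα : A.valuation (β - α) = 1 := by rw [← N.vαβ, ← Valuation.map_neg, neg_sub]
  have e : uu x0 y0 α β P - 1 = (β - α) * (xc P - x0) / ((yc P - y0) - β * (xc P - x0)) := by
    rw [uu_of_ne hP, div_sub_one h3]
    congr 1
    ring
  have hg0 : A.valuation ((yc P - y0) - β * (xc P - x0)) ≠ 0 := (A.valuation.ne_zero_iff).2 h3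
  rw [e, map_div₀, map_mul, hβα, one_mul, div_pow, h2]
  have hX0 : A.valuation (xc P - x0) ≠ 0 := (lt_of_lt_of_le zero_lt_one hX).ne'
  field_simp

theorem uu_neg_mul (N : NodeData A W x0 y0 α β c) {P : W.Point} (hP : InE0 A x0 P) :
    uu x0 y0 α β (-P) * uu x0 y0 α β P = 1 := by
  by_cases hP0 : P = 0
  · rw [hP0, _root_.neg_zero, uu_zero, one_mul]
  obtain ⟨-, -, h3, h4⟩ := fg_facts N hP0 (hP.resolve_left hP0)
  have hn : -P ≠ 0 := by rwa [Ne, neg_eq_zero]
  rw [uu_of_ne hn, uu_of_ne hP0, f_neg N hP0, g_neg N hP0, neg_div_neg_eq, div_mul_div_comm,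
    mul_comm]
  exact div_self (mul_ne_zero h4 h3)

/-- **(L2b)** `u (P + Q) ≡ u P · u Q  mod c`. -/
theorem val_uu_add (N : NodeData A W x0 y0 α β c) (I : IntData A W) {P Q : W.Point}
    (hP : InE0 A x0 P) (hQ : InE0 A x0 Q) :
    A.valuation (uu x0 y0 α β (P + Q) - uu x0 y0 α β P * uu x0 y0 α β Q) ≤ A.valuation c := by
  by_cases hP0 : P = 0
  · rw [hP0, zero_add, uu_zero, one_mul, sub_self, _root_.map_zero]; exact zero_le
  by_cases hQ0 : Q = 0
  · rw [hQ0, add_zero, uu_zero, mul_one, sub_self, _root_.map_zero]; exact zero_le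
  by_cases hPQ : P + Q = 0
  · have hQP : Q = -P := (neg_eq_of_add_eq_zero_right hPQ).symm
    rw [hPQ, uu_zero, hQP, mul_comm, uu_neg_mul N hP, sub_self, _root_.map_zero]; exact zero_le
  have hP1 := hP.resolve_left hP0
  have hQ1 := hQ.resolve_left hQ0
  have hR1 := (N.inE0_add I hP hQ).resolve_left hPQ
  obtain ⟨l, n, y1, y2, y3, e1, e2, e3⟩ := exists_line N hP0 hQ0 hPQ
  obtain ⟨hn1, hla, hlb⟩ := le_val_n_of_vieta A.valuation e1 e3 N.vαβ N.vc hP1 hQ1 hR1
  obtain ⟨-, -, g1, -⟩ := fg_facts N hP0 hP1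
  obtain ⟨-, -, g2, -⟩ := fg_facts N hQ0 hQ1
  obtain ⟨hfg3, -, g3, -⟩ := fg_facts N hPQ hR1
  have hf3 := g_neg N hPQ
  have hg3 := f_neg N hPQ
  rw [xc_neg, y3] at hf3 hg3
  rw [uu_of_ne hP0, uu_of_ne hQ0, uu_of_ne hPQ]
  obtain ⟨X1, hX1⟩ : ∃ X, X = xc P - x0 := ⟨_, rfl⟩
  obtain ⟨X2, hX2⟩ : ∃ X, X = xc Q - x0 := ⟨_, rfl⟩
  obtain ⟨X3, hX3⟩ : ∃ X, X = xc (P + Q) - x0 := ⟨_, rfl⟩
  obtain ⟨F3, hF3⟩ : ∃ F, F = (yc (P + Q) - y0) - α * (xc (P + Q) - x0) := ⟨_, rfl⟩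
  obtain ⟨G3, hG3⟩ : ∃ G, G = (yc (P + Q) - y0) - β * (xc (P + Q) - x0) := ⟨_, rfl⟩
  rw [← hF3, ← hG3] at hfg3
  rw [← hG3] at g3
  rw [← hF3, ← hX3] at hf3
  rw [← hG3, ← hX3] at hg3
  rw [y1, ← hX1] at g1
  rw [y2, ← hX2] at g2
  rw [← hX1, ← hX2, ← hX3] at e1 e2 e3
  rw [y1, y2, ← hX1, ← hX2, ← hF3, ← hG3]
  set v := A.valuation with hv
  have hn0 : 0 < v n := lt_of_lt_of_le zero_lt_one hn1
  -- the two products
  have I1 : (l * X1 + n - α * X1) * (l * X2 + n - α * X2) * G3 = -(n ^ 3 - c * (l - α) ^ 3) := by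
    have : G3 = -(l * X3 + n - α * X3) := by linear_combination hg3
    rw [this]
    linear_combination (-(l - α) ^ 3) * e3 - (l - α) ^ 2 * n * e2 - (l - α) * n ^ 2 * e1
  have I2 : (l * X1 + n - β * X1) * (l * X2 + n - β * X2) * F3 = -(n ^ 3 - c * (l - β) ^ 3) := by
    have : F3 = -(l * X3 + n - β * X3) := by linear_combination hf3
    rw [this]
    linear_combination (-(l - β) ^ 3) * e3 - (l - β) ^ 2 * n * e2 - (l - β) * n ^ 2 * e1
  have hcube : ∀ z : K, v z ≤ v n → v (c * z ^ 3) < v n ^ 3 := by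
    intro z hz
    rw [map_mul, map_pow]
    calc v c * v z ^ 3 ≤ v c * v n ^ 3 := by gcongr
      _ < 1 * v n ^ 3 := by
          have := N.vc
          have h3 : 0 < v n ^ 3 := pow_pos hn0 3
          gcongr
      _ = v n ^ 3 := one_mul _
  have hden : v ((l * X1 + n - β * X1) * (l * X2 + n - β * X2) * G3) = v n ^ 3 := by
    rw [map_mul, ← hfg3, ← map_mul, I2, Valuation.map_neg, Valuation.map_sub_eq_of_lt_left, map_pow]
    rw [map_pow]; exact hcube _ hlb
  have key : (F3 / G3 - (l * X1 + n - α * X1) / (l * X1 + n - β * X1)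
      * ((l * X2 + n - α * X2) / (l * X2 + n - β * X2)))
      * ((l * X1 + n - β * X1) * (l * X2 + n - β * X2) * G3)
      = c * ((l - β) ^ 3 - (l - α) ^ 3) := by
    rw [key_alg g1 g2 g3 I1 I2]
    ring
  have hnum : v (c * ((l - β) ^ 3 - (l - α) ^ 3)) ≤ v c * v n ^ 3 := by
    rw [map_mul]
    gcongr
    refine Valuation.map_sub_le _ ?_ ?_
    · rw [map_pow]; gcongr
    · rw [map_pow]; gcongr
  have h5 := congrArg v key
  rw [map_mul, hden] at h5
  rw [← h5] at hnum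
  exact le_of_mul_le_mul_right hnum (pow_pos hn0 3)

/-- `u (k P) ≡ (u P)^k  mod c`. -/
theorem val_uu_nsmul (N : NodeData A W x0 y0 α β c) (I : IntData A W) {P : W.Point}
    (hP : InE0 A x0 P) (k : ℕ) :
    A.valuation (uu x0 y0 α β (k • P) - uu x0 y0 α β P ^ k) ≤ A.valuation c := by
  induction k with
  | zero => rw [zero_smul, uu_zero, pow_zero, sub_self, _root_.map_zero]; exact zero_le
  | succ k ih =>
    have e : uu x0 y0 α β ((k + 1) • P) - uu x0 y0 α β P ^ (k + 1)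
        = (uu x0 y0 α β (k • P + P) - uu x0 y0 α β (k • P) * uu x0 y0 α β P)
          + (uu x0 y0 α β (k • P) - uu x0 y0 α β P ^ k) * uu x0 y0 α β P := by
      rw [succ_nsmul]; ring
    rw [e]
    refine Valuation.map_add_le _ (val_uu_add N I (N.inE0_nsmul I hP k) hP) ?_
    rw [map_mul, val_uu N hP, mul_one]
    exact ih

end Fermat.Agent.ML.EOrd
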