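import Fermat.Agent.ML.EOrd.NodeD
import Fermat.Agent.ML.EOrd.UHom
import Fermat.Agent.ML.EOrd.Alg
import Fermat.Agent.ML.ESide.Any

/-!
# ML / [E-ORD] = [E-STp] : `W` multiplicative at the odd prime `p`

`(s₁ - χ(s₁) e(s₁)) (s₂ - e(s₂)) = 0` on `W[p^k]` for `s₁, s₂` in the decomposition group at `A ∣ p`, `e` the unramified quadratic
character "`s` fixes the tangent directions at the node".

`strict_of_cyc` : the statement, given that `E₀ ∩ W[p^k]` is cyclic.
-/

set_option autoImplicit false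

namespace Fermat.Agent.ML.EOrd

open WeierstrassCurve WeierstrassCurve.Affine WeierstrassCurve.Affine.Point
open Fermat.Agent.S05 Fermat.Agent.HW Fermat.Agent.ML.ESide
open scoped WeierstrassCurve.Affine

local notation "Qb" => AlgebraicClosure ℚ
local notation "GQ" => (AlgebraicClosure ℚ ≃ₐ[ℚ] AlgebraicClosure ℚ)

variable {W : WeierstrassCurve ℤ} {A : ValuationSubring Qb} {x0 y0 α β c : Qb}

/-- `E₀` is stable under the decomposition group. -/
theorem inE0_smul (G : NodeGal A x0 y0 α β) {σ : GQ} (hσ : σ ∈ A.decompositionSubgroup ℚ)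
    {P : (EQb W).Point} (h : InE0 A x0 P) : InE0 A x0 (σ • P) := by
  by_cases hP : P = 0
  · rw [hP, gsmul_zero]; exact inE0_zero
  obtain ⟨-, hsx, -⟩ := smul_ne_zero_coord (W := W) σ hP
  right
  have e : σ (xc P - x0) = σ (xc P) - x0 := by rw [map_sub, G.hx0 σ hσ]
  rw [hsx, ← e, Fermat.Agent.S13.val_eq_of_decomp A σ hσ]
  exact h.resolve_left hP

/-- the core: one level `p^(k+1)`. -/
theorem strict_level {p : ℕ} [Fact p.Prime] (hΔ : W.Δ ≠ 0) (hp2 : p ≠ 2)
    (hirr : W.ModRepIsIrreducible p)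
    (N : NodeData A (EQb W) x0 y0 α β c) (G : NodeGal A x0 y0 α β) (k : ℕ)
    (hcyc : ∃ t : (EQb W).Point, p ^ (k + 1) • t = 0 ∧ ∀ y : (EQb W).Point, p ^ (k + 1) • y = 0 →
      InE0 A x0 y → ∃ j : ℕ, y = j • t)
    {s₁ s₂ : GQ} (h₁ : s₁ ∈ A.decompositionSubgroup ℚ) (h₂ : s₂ ∈ A.decompositionSubgroup ℚ)
    (x : (EQb W).Point) (hx : p ^ (k + 1) • x = 0) (a : ℕ)
    (ha : ∀ μ : Qb, μ ^ (p ^ (k + 1)) = 1 → s₁ μ = μ ^ a) :
    s₁ • (s₂ • x - eSign α s₂ • x) = ((a : ℤ) * eSign α s₁) • (s₂ • x - eSign α s₂ • x) := by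
  classical
  have hp : p.Prime := Fact.out
  set m := p ^ (k + 1) with hm
  have hodd : Odd m := (hp.odd_of_ne_two hp2).pow
  have I := intData_EQb W A
  have hadd : ∀ R S : (EQb W).Point, InE0 A x0 R → InE0 A x0 S → InE0 A x0 (R + S) :=
    fun R S hR hS => N.inE0_add I hR hS
  obtain ⟨t, hmt, ht⟩ := hcyc
  obtain ⟨b⟩ := exists_basis_torsW (W := W) (p := p) hΔ hp2
  obtain ⟨B, -⟩ := exists_basis_lift hΔ hp2 b k
  -- points of `W[m]`
  have mk : ∀ z : (EQb W).Point, m • z = 0 → z ∈ Submodule.torsionBy ℤ (S58.EQ W) (m : ℤ) := by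
    intro z hz
    rw [Submodule.mem_torsionBy_iff, natCast_zsmul]
    exact hz
  have hgm : ∀ (σ : GQ) (z : (EQb W).Point), m • z = 0 → m • (σ • z) = 0 := by
    intro σ z hz
    rw [← gsmul_nsmul, hz, gsmul_zero]
  have hdm : ∀ (σ : GQ) (z : (EQb W).Point), m • z = 0 → m • (σ • z - eSign α σ • z) = 0 := by
    intro σ z hz
    have h1 : m • (eSign α σ • z) = 0 := by
      rw [← natCast_zsmul, ← mul_zsmul, mul_comm, mul_zsmul, natCast_zsmul, hz, zsmul_zero]
    rw [nsmul_sub, hgm σ z hz, h1, sub_zero]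
  set y : (EQb W).Point := s₂ • x - eSign α s₂ • x with hy
  have hmy : m • y = 0 := hdm s₂ x hx
  have hyE : InE0 A x0 y := smul_sub_inE0 N G hodd hadd h₂ hx
  let T : TorsW W m := ⟨t, mk t hmt⟩
  let Y : TorsW W m := ⟨y, mk y hmy⟩
  have hE : ∀ (σ : GQ) (z : TorsW W m), (rEB B σ).mulVec (B.equivFun z) = B.equivFun (σ • z) := by
    intro σ z
    rw [Module.Basis.equivFun_apply, Module.Basis.equivFun_apply]
    exact rEB_mulVec B σ z
  have key := mulVec_eq_of_line (rEB B s₁) (B.equivFun T) (B.equivFun Y)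
    ((eSign α s₁ : ℤ) : ZMod m)
    ((a : ℕ) : ZMod m) (by rw [← Int.cast_mul, eSign_mul_self, Int.cast_one])
    (rEB_det_of_pow B hΔ hp2 hirr s₁ a ha)
    (by
      obtain ⟨j, hj⟩ := ht y hmy hyE
      refine ⟨(j : ZMod m), ?_⟩
      have : Y = j • T := Subtype.ext hj
      rw [this, map_nsmul, Nat.cast_smul_eq_nsmul])
    (by
      intro w
      obtain ⟨z, rfl⟩ : ∃ z : TorsW W m, B.equivFun z = w := ⟨B.equivFun.symm w, B.equivFun.apply_symm_apply w⟩
      have hz : m • (z : (EQb W).Point) = 0 := nsmul_coe_torsW W z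
      obtain ⟨j, hj⟩ := ht _ (hdm s₁ z hz) (smul_sub_inE0 N G hodd hadd h₁ hz)
      refine ⟨(j : ZMod m), ?_⟩
      have : s₁ • z - eSign α s₁ • z = j • T := Subtype.ext hj
      rw [hE, Int.cast_smul_eq_zsmul, ← map_zsmul, ← map_sub, this, map_nsmul,
        Nat.cast_smul_eq_nsmul])
  rw [hE, ← Int.cast_natCast, ← Int.cast_mul, Int.cast_smul_eq_zsmul, ← map_zsmul] at key
  have := B.equivFun.injective key
  exact congrArg Subtype.val this

end Fermat.Agent.ML.EOrd
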