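import Fermat.Agent.ML.EOrd.Branch
import Fermat.Agent.HW.Pow.Unip
import Fermat.Agent.HW.AtP.Main

/-!
# ML / [E-ORD] : the node data at an odd prime `p` of multiplicative reduction and the decomposition group

* `exists_nodeData_D` : `HW.NodeData` with `v c ≤ v p`; every `σ` in the decomposition group fixes `x0`, `y0` and fixes or swaps
  the tangent directions `α`, `β`; inertia fixes them.
* `eSign α σ = ±1` : the unramified quadratic character.
* `smul_sub_inE0` : **(L4)** `σ P - e(σ) P ∈ E₀` for `P` of odd order, `σ` in the decomposition group.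
-/

set_option autoImplicit false
set_option linter.unusedVariables false

namespace Fermat.Agent.ML.EOrd

open WeierstrassCurve WeierstrassCurve.Affine WeierstrassCurve.Affine.Point
open Fermat.Agent.S05 Fermat.Agent.HW
open scoped WeierstrassCurve.Affine

local notation "Qb" => AlgebraicClosure ℚ
local notation "GQ" => (AlgebraicClosure ℚ ≃ₐ[ℚ] AlgebraicClosure ℚ)

/-- the action of the decomposition group on the node data. -/
structure NodeGal (A : ValuationSubring Qb) (x0 y0 α β : Qb) : Prop where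
  hx0 : ∀ σ ∈ A.decompositionSubgroup ℚ, σ x0 = x0
  hy0 : ∀ σ ∈ A.decompositionSubgroup ℚ, σ y0 = y0
  hαβ : ∀ σ ∈ A.decompositionSubgroup ℚ, (σ α = α ∧ σ β = β) ∨ (σ α = β ∧ σ β = α)
  hI : ∀ σ ∈ A.inertiaSubgroupIn ℚ, σ α = α
  hne : α ≠ β

theorem exists_nodeData_D (W : WeierstrassCurve ℤ) {p : ℕ} (hp : p.Prime) (hp2 : p ≠ 2)
    (hΔ0 : W.Δ ≠ 0) (hΔ : (p : ℤ) ∣ W.Δ) (hc₄ : ¬ (p : ℤ) ∣ W.c₄)
    (A : ValuationSubring Qb) (hA : A.LiesOverPrime p) :
    ∃ x0 y0 α β c : Qb, NodeData A (EQb W) x0 y0 α β c ∧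
      A.valuation c ≤ A.valuation ((p : ℕ) : Qb) ∧ NodeGal A x0 y0 α β := by
  set W' : WeierstrassCurve.Affine Qb := EQb W with hW'
  have e₁ : W'.a₁ = ((W.a₁ : ℤ) : Qb) := by simp [hW']
  have e₂ : W'.a₂ = ((W.a₂ : ℤ) : Qb) := by simp [hW']
  have e₃ : W'.a₃ = ((W.a₃ : ℤ) : Qb) := by simp [hW']
  have e₄ : W'.a₄ = ((W.a₄ : ℤ) : Qb) := by simp [hW']
  have e₆ : W'.a₆ = ((W.a₆ : ℤ) : Qb) := by simp [hW']
  have eb₂ : W'.b₂ = ((W.b₂ : ℤ) : Qb) := by
    change ((W.map (Int.castRingHom ℚ)).map (algebraMap ℚ Qb)).b₂ = _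
    rw [WeierstrassCurve.map_b₂, WeierstrassCurve.map_b₂]; simp
  have ec₄ : W'.c₄ = ((W.c₄ : ℤ) : Qb) := by
    change ((W.map (Int.castRingHom ℚ)).map (algebraMap ℚ Qb)).c₄ = _
    rw [WeierstrassCurve.map_c₄, WeierstrassCurve.map_c₄]; simp
  have ec₆ : W'.c₆ = ((W.c₆ : ℤ) : Qb) := by
    change ((W.map (Int.castRingHom ℚ)).map (algebraMap ℚ Qb)).c₆ = _
    rw [WeierstrassCurve.map_c₆, WeierstrassCurve.map_c₆]; simp
  have eΔ : W'.Δ = ((W.Δ : ℤ) : Qb) := by
    change ((W.map (Int.castRingHom ℚ)).map (algebraMap ℚ Qb)).Δ = _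
    rw [WeierstrassCurve.map_Δ, WeierstrassCurve.map_Δ]; simp
  have hvc₄ : A.valuation W'.c₄ = 1 := by rw [ec₄]; exact crit_val_intCast_eq_one A hp hA hc₄
  have hvΔ : A.valuation W'.Δ < 1 := by rw [eΔ]; exact crit_val_intCast_lt_one A hA hΔ
  obtain ⟨s, x0, y0, α, β, c, hs, hx0, hvs, hN⟩ := exists_nodeData_aux A W'
    (by rw [e₁]; exact intCast_mem A _) (by rw [e₂]; exact intCast_mem A _)
    (by rw [e₃]; exact intCast_mem A _) (by rw [e₄]; exact intCast_mem A _)
    (by rw [e₆]; exact intCast_mem A _) hvc₄ hvΔ (by rw [eΔ]; exact_mod_cast hΔ0)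
  have hb₂d : W'.b₂ = W'.a₁ ^ 2 + 4 * W'.a₂ := rfl
  have hb₄d : W'.b₄ = 2 * W'.a₄ + W'.a₁ * W'.a₃ := rfl
  have hb₆d : W'.b₆ = W'.a₃ ^ 2 + 4 * W'.a₆ := rfl
  have hc₄d : W'.c₄ = W'.b₂ ^ 2 - 24 * W'.b₄ := rfl
  have hc₆d : W'.c₆ = -W'.b₂ ^ 3 + 36 * W'.b₂ * W'.b₄ - 216 * W'.b₆ := rfl
  have hrel : 1728 * W'.Δ = W'.c₄ ^ 3 - W'.c₆ ^ 2 := W'.c_relation
  have hq : 6 * x0 ^ 2 + W'.b₂ * x0 + W'.b₄ = 0 := by
    rw [hb₂d, hb₄d]
    linear_combination W'.a₁ * hN.hy - 2 * hN.hx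
  have h4c : 4 * c = 4 * x0 ^ 3 + W'.b₂ * x0 ^ 2 + 2 * W'.b₄ * x0 + W'.b₆ := by
    rw [hb₂d, hb₄d, hb₆d, hN.hc]
    linear_combination (-(2 * y0 + W'.a₁ * x0 + W'.a₃)) * hN.hy
  have h864 : 864 * c = -(W'.c₆ + s ^ 3) := by
    rw [hc₆d, hx0]
    linear_combination 216 * h4c + (432 * x0 + 36 * W'.b₂) * hq
  have h2Δ : 2 * W'.Δ = c * (W'.c₆ - s ^ 3) := by
    have : 864 * (2 * W'.Δ) = 864 * (c * (W'.c₆ - s ^ 3)) := by
      have hs6 : W'.c₄ ^ 3 = (s ^ 3) ^ 2 := by rw [← hs]; ring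
      linear_combination hrel + hs6 - (W'.c₆ - s ^ 3) * h864
    exact mul_left_cancel₀ (by norm_num) this
  have hpA : A.valuation ((p : ℕ) : Qb) < 1 := hA
  have hv2 : A.valuation (2 : Qb) = 1 := by
    have := valuation_natCast_eq_one A hp hpA (n := 2) (by
      intro h; exact hp2 ((Nat.prime_dvd_prime_iff_eq hp Nat.prime_two).1 h))
    simpa using this
  -- `v c₆ = 1`
  have hvc₆ : A.valuation W'.c₆ = 1 := by
    apply crit_val_eq_one_of_sq
    rw [← map_pow]
    have e : W'.c₆ ^ 2 = W'.c₄ ^ 3 + -(1728 * W'.Δ) := by linear_combination hrel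
    rw [e]
    have h1 : A.valuation (-(1728 * W'.Δ)) < A.valuation (W'.c₄ ^ 3) := by
      rw [Valuation.map_neg, map_mul, map_pow, hvc₄, one_pow]
      have : A.valuation (1728 : Qb) ≤ 1 :=
        (A.valuation_le_one_iff _).2 (by exact_mod_cast natCast_mem A 1728)
      exact lt_of_le_of_lt (mul_le_of_le_one_left' this) hvΔ
    rw [Valuation.map_add_eq_of_lt_left _ h1, map_pow, hvc₄, one_pow]
  have hplus : A.valuation (W'.c₆ + s ^ 3) < 1 := by
    have : W'.c₆ + s ^ 3 = -(864 * c) := by linear_combination h864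
    rw [this, Valuation.map_neg, map_mul]
    have h1 : A.valuation (864 : Qb) ≤ 1 :=
      (A.valuation_le_one_iff _).2 (by exact_mod_cast natCast_mem A 864)
    exact lt_of_le_of_lt (mul_le_of_le_one_left' h1) hN.vc
  have hminus : A.valuation (W'.c₆ - s ^ 3) = 1 := by
    have e : W'.c₆ - s ^ 3 = 2 * W'.c₆ - (W'.c₆ + s ^ 3) := by ring
    have h1 : A.valuation (2 * W'.c₆) = 1 := by rw [map_mul, hv2, hvc₆, one_mul]
    rw [e, Valuation.map_sub_eq_of_lt_left _ (by rw [h1]; exact hplus), h1]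
  have hvc : A.valuation c = A.valuation W'.Δ := by
    have := congrArg A.valuation h2Δ
    rw [map_mul, map_mul, hv2, hminus, one_mul, mul_one] at this
    exact this.symm
  have hvcp : A.valuation c ≤ A.valuation ((p : ℕ) : Qb) := by
    rw [hvc, eΔ]
    obtain ⟨m, hm⟩ := hΔ
    rw [hm]
    push_cast
    rw [map_mul]
    exact mul_le_of_le_one_right' ((A.valuation_le_one_iff _).2 (intCast_mem A m))
  have hne : α ≠ β := by
    intro h
    have := hN.vαβ
    rw [h, sub_self, _root_.map_zero] at this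
    exact zero_ne_one this
  have hroot : ∀ t : Qb, t ^ 2 + W'.a₁ * t - (W'.a₂ + 3 * x0) = (t - α) * (t - β) := by
    intro t
    linear_combination t * hN.hsum - hN.hprod
  -- the decomposition group
  have hD : ∀ σ ∈ A.decompositionSubgroup ℚ, σ x0 = x0 ∧ σ y0 = y0 ∧
      ((σ α = α ∧ σ β = β) ∨ (σ α = β ∧ σ β = α)) := by
    intro σ hσ
    have hv : ∀ z, A.valuation (σ z) = A.valuation z :=
      fun z => Fermat.Agent.S13.val_eq_of_decomp A σ hσ z
    have hσs : σ s = s := by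
      have h1 : (σ s) ^ 2 = s ^ 2 := by
        rw [← map_pow, hs, ec₄, map_intCast]
      rcases sq_eq_sq_iff_eq_or_eq_neg.1 h1 with h | h
      · exact h
      · exfalso
        have h2 := congrArg σ h864
        rw [map_mul, map_neg, map_add, map_pow, h, ec₆, map_intCast, map_ofNat, ← ec₆] at h2
        have h3 : W'.c₆ - s ^ 3 = -(864 * σ c) := by linear_combination h2
        have h4 : A.valuation (W'.c₆ - s ^ 3) < 1 := by
          rw [h3, Valuation.map_neg, map_mul, hv]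
          have h1 : A.valuation (864 : Qb) ≤ 1 :=
            (A.valuation_le_one_iff _).2 (by exact_mod_cast natCast_mem A 864)
          exact lt_of_le_of_lt (mul_le_of_le_one_left' h1) hN.vc
        rw [hminus] at h4
        exact lt_irrefl _ h4
    have hσx : σ x0 = x0 := by
      have h4 : σ s = W'.b₂ + 12 * σ x0 := by
        conv_lhs => rw [hx0]
        rw [map_add, map_mul, eb₂, map_intCast, map_ofNat]
      have : 12 * σ x0 = 12 * x0 := by linear_combination hσs - h4 + hx0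
      exact mul_left_cancel₀ (by norm_num) this
    have hσy : σ y0 = y0 := by
      have h1 := congrArg σ hN.hy
      rw [map_add, map_add, map_mul, map_mul, _root_.map_zero, e₁, e₃, map_intCast, map_intCast,
        map_ofNat, hσx, ← e₁, ← e₃] at h1
      have : 2 * σ y0 = 2 * y0 := by linear_combination h1 - hN.hy
      exact mul_left_cancel₀ (by norm_num) this
    have hσroot : ∀ t : Qb, t ^ 2 + W'.a₁ * t - (W'.a₂ + 3 * x0) = 0 →
        (σ t) ^ 2 + W'.a₁ * σ t - (W'.a₂ + 3 * x0) = 0 := by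
      intro t ht
      have h1 := congrArg σ ht
      rw [map_sub, map_add, map_add, map_mul, map_mul, map_pow, _root_.map_zero, e₁, e₂, map_intCast,
        map_intCast, map_ofNat, hσx, ← e₁, ← e₂] at h1
      exact h1
    have hsumσ : σ α + σ β = α + β := by
      rw [← map_add, hN.hsum, map_neg, e₁, map_intCast]
    refine ⟨hσx, hσy, ?_⟩
    have h1 := hσroot α (by rw [hroot]; ring)
    rw [hroot] at h1
    rcases mul_eq_zero.1 h1 with h | h
    · left
      have hα := sub_eq_zero.1 h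
      exact ⟨hα, by linear_combination hsumσ - hα⟩
    · right
      have hα := sub_eq_zero.1 h
      exact ⟨hα, by linear_combination hsumσ - hα⟩
  refine ⟨x0, y0, α, β, c, hN, hvcp, ⟨fun σ hσ => (hD σ hσ).1, fun σ hσ => (hD σ hσ).2.1,
    fun σ hσ => (hD σ hσ).2.2, ?_, hne⟩⟩
  intro σ hσ
  rcases (hD σ (Fermat.Agent.S13.inertia_le_decomp A hσ)).2.2 with h | h
  · exact h.1
  · exfalso
    have h2 := inertia_spec A σ hσ α hN.vα
    rw [h.1, ← Valuation.map_neg, neg_sub, hN.vαβ] at h2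
    exact lt_irrefl _ h2

open Classical in
/-- the sign of `σ` on the tangent directions. -/
noncomputable def eSign (α : Qb) (σ : GQ) : ℤ := if σ α = α then 1 else -1

theorem eSign_eq (α : Qb) (σ : GQ) : eSign α σ = 1 ∨ eSign α σ = -1 := by
  unfold eSign
  split_ifs
  · exact Or.inl rfl
  · exact Or.inr rfl

theorem eSign_mul_self (α : Qb) (σ : GQ) : eSign α σ * eSign α σ = 1 := by
  rcases eSign_eq α σ with h | h <;> rw [h] <;> norm_num

namespace NodeGal

variable {A : ValuationSubring Qb} {x0 y0 α β : Qb}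

theorem eSign_inertia (G : NodeGal A x0 y0 α β) {σ : GQ} (hσ : σ ∈ A.inertiaSubgroupIn ℚ) :
    eSign α σ = 1 := by
  unfold eSign
  rw [if_pos (G.hI σ hσ)]

theorem eSign_one_iff (G : NodeGal A x0 y0 α β) (σ : GQ) : eSign α σ = 1 ↔ σ α = α := by
  unfold eSign
  split_ifs with h
  · simp [h]
  · simp [h]

theorem eSign_mul (G : NodeGal A x0 y0 α β) {σ τ : GQ} (hσ : σ ∈ A.decompositionSubgroup ℚ)
    (hτ : τ ∈ A.decompositionSubgroup ℚ) : eSign α (σ * τ) = eSign α σ * eSign α τ := by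
  have hne := G.hne
  unfold eSign
  rw [AlgEquiv.mul_apply]
  rcases G.hαβ σ hσ with ⟨a1, a2⟩ | ⟨a1, a2⟩ <;> rcases G.hαβ τ hτ with ⟨b1, b2⟩ | ⟨b1, b2⟩
  · simp [a1, b1]
  · simp [a1, a2, b1, hne.symm]
  · simp [a1, b1, hne.symm]
  · simp [a1, a2, b1, hne.symm]

end NodeGal

section L4

variable {W : WeierstrassCurve ℤ} {A : ValuationSubring Qb} {x0 y0 α β c : Qb}

theorem gsmul_zero (σ : GQ) : σ • (0 : (EQb W).Point) = 0 := rfl

theorem gsmul_nsmul (σ : GQ) (m : ℕ) (P : (EQb W).Point) : σ • (m • P) = m • (σ • P) :=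
  map_nsmul (Point.map (W' := (W.map (Int.castRingHom ℚ)).toAffine) σ.toAlgHom) m P

theorem gsmul_zsmul (σ : GQ) (m : ℤ) (P : (EQb W).Point) : σ • (m • P) = m • (σ • P) :=
  map_zsmul (Point.map (W' := (W.map (Int.castRingHom ℚ)).toAffine) σ.toAlgHom) m P

theorem gsmul_add (σ : GQ) (P Q : (EQb W).Point) : σ • (P + Q) = σ • P + σ • Q :=
  map_add (Point.map (W' := (W.map (Int.castRingHom ℚ)).toAffine) σ.toAlgHom) P Q

theorem smul_ne_zero_coord (σ : GQ) {P : (EQb W).Point} (hP : P ≠ 0) :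
    σ • P ≠ 0 ∧ xc (σ • P) = σ (xc P) ∧ yc (σ • P) = σ (yc P) := by
  cases P with
  | zero => exact absurd rfl hP
  | some x y h =>
    have e : σ • (Point.some x y h : (EQb W).Point)
        = Point.map (W' := (W.map (Int.castRingHom ℚ)).toAffine) σ.toAlgHom (Point.some x y h) := rfl
    rw [e, Point.map_some]
    exact ⟨some_ne_zero _, rfl, rfl⟩

/-- **(L4)** -/
theorem smul_sub_inE0 (N : NodeData A (EQb W) x0 y0 α β c) (G : NodeGal A x0 y0 α β)
    {m : ℕ} (hm : Odd m)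
    (hadd : ∀ R S : (EQb W).Point, InE0 A x0 R → InE0 A x0 S → InE0 A x0 (R + S))
    {σ : GQ} (hσ : σ ∈ A.decompositionSubgroup ℚ) {P : (EQb W).Point} (hmP : m • P = 0) :
    InE0 A x0 (σ • P - eSign α σ • P) := by
  classical
  have hv : ∀ z, A.valuation (σ z) = A.valuation z :=
    fun z => Fermat.Agent.S13.val_eq_of_decomp A σ hσ z
  have hx0 := G.hx0 σ hσ
  have hy0 := G.hy0 σ hσ
  have hmσ : m • (σ • P) = 0 := by rw [← gsmul_nsmul, hmP, gsmul_zero]
  by_cases hP : P = 0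
  · rw [hP, gsmul_zero, zsmul_zero, sub_zero]; exact inE0_zero
  obtain ⟨hs0, hsx, hsy⟩ := smul_ne_zero_coord (W := W) σ hP
  have hσlin : ∀ γ : Qb, σ (yc P - y0 - γ * (xc P - x0))
      = σ (yc P) - y0 - σ γ * (σ (xc P) - x0) := by
    intro γ; rw [map_sub, map_sub, map_mul, map_sub, hx0, hy0]
  have hσX : σ (xc P - x0) = σ (xc P) - x0 := by rw [map_sub, hx0]
  rcases G.hαβ σ hσ with ⟨a1, a2⟩ | ⟨a1, a2⟩
  · have he : eSign α σ = 1 := (G.eSign_one_iff σ).2 a1
    rw [he, one_smul]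
    refine sub_inE0 N hm hadd hmP hmσ ⟨fun h => absurd h hP, fun h => absurd h hs0⟩ ?_ ?_ ?_
    · rw [hsx, ← hσX, hv]
    · have := hσlin α
      rw [a1] at this
      rw [hsx, hsy, ← this, hv]
    · have := hσlin β
      rw [a2] at this
      rw [hsx, hsy, ← this, hv]
  · have he : eSign α σ = -1 := by
      rcases eSign_eq α σ with h | h
      · exact absurd (((G.eSign_one_iff σ).1 h).symm.trans a1) G.hne
      · exact h
    rw [he, neg_smul, one_smul, sub_neg_eq_add]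
    have hns0 : -(σ • P) ≠ 0 := neg_ne_zero.2 hs0
    have key : InE0 A x0 (-(σ • P) - P) := by
      refine sub_inE0 N hm hadd hmP (by rw [smul_neg, hmσ, _root_.neg_zero])
        ⟨fun h => absurd h hP, fun h => absurd h hns0⟩ ?_ ?_ ?_
      · rw [xc_neg, hsx, ← hσX, hv]
      · have := hσlin α
        rw [a1] at this
        rw [f_neg N hs0, Valuation.map_neg, hsx, hsy, ← this, hv]
      · have := hσlin β
        rw [a2] at this
        rw [g_neg N hs0, Valuation.map_neg, hsx, hsy, ← this, hv]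
    have e : σ • P + P = -(-(σ • P) - P) := by abel
    rw [e]
    exact inE0_neg key

end L4

end Fermat.Agent.ML.EOrd
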