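import Fermat.Agent.ML.EOrd.UHom
import Fermat.Agent.ML.ESide.Ord.Height

/-!
# ML / [E-ORD] : (b) two nonzero `p`-torsion points of `E₀` are proportional

`inE0_prop_of_add` takes `E₀` is a subgroup as a hypothesis `hadd`; `inE0_prop'` uses `NodeData.inE0_add` (`UHom.lean`).
-/

set_option autoImplicit false
set_option linter.unusedSectionVars false

namespace Fermat.Agent.ML.EOrd

open WeierstrassCurve WeierstrassCurve.Affine WeierstrassCurve.Affine.Point
open Fermat.Agent.S05 Fermat.Agent.S13 Fermat.Agent.HW Fermat.Agent.HW.AtP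
open Fermat.Agent.ML.ESide.Height

variable {K : Type*} [Field K] [DecidableEq K] {W : WeierstrassCurve.Affine K}
  {A : ValuationSubring K} {x0 y0 α β c : K} {p : ℕ}

/-- the bound for the slope term (`1 ≤ a`). -/
theorem val_slope_term_le (N : NodeData A W x0 y0 α β c) {l : K} {a : A.ValueGroup}
    (ha : 1 ≤ a) (h : A.valuation ((l - α) * (l - β)) ≤ a) :
    A.valuation ((l - β) ^ 3 - (l - α) ^ 3) ≤ a := by
  rcases ha.lt_or_eq with ha | rfl
  · exact val_slope_term N ha h
  set v := A.valuation with hv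
  have hβα : v (β - α) = 1 := by rw [← N.vαβ, ← Valuation.map_neg, neg_sub]
  have key : ∀ {p1 p2 : K}, v (p1 - p2) = 1 → v (p1 * p2) ≤ 1 → v (p1 ^ 2) ≤ 1 := by
    intro p1 p2 h1 h2
    rcases le_or_gt (v p1) 1 with h3 | h3
    · rw [map_pow]; exact pow_le_one₀ zero_le h3
    · have h4 : v p2 = v p1 := by
        have : p2 = p1 - (p1 - p2) := by ring
        rw [this]
        exact Valuation.map_sub_eq_of_lt_left _ (by rw [h1]; exact h3)
      rw [map_mul, h4] at h2
      rw [map_pow, sq]; exact h2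
  have k1 : v ((l - α) ^ 2) ≤ 1 := key (p2 := l - β) (by
    have : (l - α) - (l - β) = β - α := by ring
    rw [this, hβα]) h
  have k2 : v ((l - β) ^ 2) ≤ 1 := key (p2 := l - α) (by
    have : (l - β) - (l - α) = α - β := by ring
    rw [this, N.vαβ]) (by rw [mul_comm]; exact h)
  have e : (l - β) ^ 3 - (l - α) ^ 3
      = (α - β) * ((l - β) ^ 2 + (l - α) * (l - β) + (l - α) ^ 2) := by ring
  rw [e, map_mul, N.vαβ, one_mul]
  exact Valuation.map_add_le _ (Valuation.map_add_le _ k2 h) k1

/-- an integral point with `v X = 1`: `f`, `g` are units. -/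
theorem val_unit_of_val_X (N : NodeData A W x0 y0 α β c) {R : W.Point} (hR : R ≠ 0)
    (hX : A.valuation (xc R - x0) = 1) :
    A.valuation ((yc R - y0) - α * (xc R - x0)) = 1 ∧
      A.valuation ((yc R - y0) - β * (xc R - x0)) = 1 := by
  have e1 := N.eqn hR
  obtain ⟨X, hXdef⟩ : ∃ X, X = xc R - x0 := ⟨_, rfl⟩
  obtain ⟨f, hfdef⟩ : ∃ f, f = (yc R - y0) - α * (xc R - x0) := ⟨_, rfl⟩
  obtain ⟨g, hgdef⟩ : ∃ g, g = (yc R - y0) - β * (xc R - x0) := ⟨_, rfl⟩
  have e2 : (β - α) * X = f - g := by rw [hXdef, hfdef, hgdef]; ring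
  rw [← hfdef, ← hgdef, ← hXdef] at e1
  rw [← hXdef] at hX
  rw [← hfdef, ← hgdef]
  set v := A.valuation with hv
  have hβα : v (β - α) = 1 := by rw [← N.vαβ, ← Valuation.map_neg, neg_sub]
  have h3 : v (X ^ 3 + c) = 1 := by
    have h4 : v (X ^ 3) = 1 := by rw [map_pow, hX, one_pow]
    rw [← h4]
    exact Valuation.map_add_eq_of_lt_left _ (by rw [h4]; exact N.vc)
  have hfg : v f * v g = 1 := by rw [← map_mul, e1, h3]
  have hd : v (f - g) = 1 := by rw [← e2, map_mul, hβα, one_mul, hX]
  have key : ∀ {a b : K}, v a * v b = 1 → v (a - b) = 1 → v a ≤ 1 := by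
    intro a b hab hdab
    by_contra hlt
    rw [not_le] at hlt
    have h1 : v b = v a := by
      have : b = a - (a - b) := by ring
      rw [this]
      exact Valuation.map_sub_eq_of_lt_left _ (by rw [hdab]; exact hlt)
    rw [h1] at hab
    have : 1 < v a * v a := one_lt_mul'' hlt hlt
    rw [hab] at this
    exact lt_irrefl _ this
  have hf1 : v f ≤ 1 := key hfg hd
  have hg1 : v g ≤ 1 := key (by rw [mul_comm]; exact hfg) (by rw [Valuation.map_sub_swap]; exact hd)
  constructor
  · refine le_antisymm hf1 ?_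
    by_contra h
    rw [not_le] at h
    have : v f * v g < 1 := by
      calc v f * v g ≤ v f * 1 := by gcongr
        _ = v f := mul_one _
        _ < 1 := h
    rw [hfg] at this
    exact lt_irrefl _ this
  · refine le_antisymm hg1 ?_
    by_contra h
    rw [not_le] at h
    have : v f * v g < 1 := by
      calc v f * v g ≤ 1 * v g := by gcongr
        _ = v g := one_mul _
        _ < 1 := h
    rw [hfg] at this
    exact lt_irrefl _ this

/-- if one prime-to-`p` multiple of `t` is not integral, `t` is not integral. -/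
theorem nonint_of_nsmul (I : IntData A W) (D : PData A p) {t : W.Point} (ht : t ≠ 0)
    (hpt : p • t = 0) {j : ℕ} (hj : ¬ p ∣ j) (h : 1 < A.valuation (xc (j • t))) :
    1 < A.valuation (xc t) := by
  have hcop : Nat.Coprime j p := ((Nat.Prime.coprime_iff_not_dvd D.hp).2 hj).symm
  obtain ⟨m, -, hm⟩ := Nat.exists_mul_mod_eq_one_of_coprime hcop D.hp.one_lt
  have hm' : ¬ p ∣ m := by
    intro h'
    have : j * m % p = 0 := Nat.mod_eq_zero_of_dvd (Dvd.dvd.mul_left h' j)
    omega
  have hmt : m • (j • t) = t := by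
    rw [← mul_smul, mul_comm, nsmul_eq_mod_nsmul _ hpt, hm, one_smul]
  have h0 : j • t ≠ 0 := nsmul_ne_zero_of_not_dvd D.hp ht hpt hj
  have h2 := (val_xc_nsmul A.valuation ((A.valuation_le_one_iff _).2 I.b₂)
    ((A.valuation_le_one_iff _).2 I.b₄) ((A.valuation_le_one_iff _).2 I.b₆)
    ((A.valuation_le_one_iff _).2 I.b₈) h0 h (D.val_natCast hm')).2
  rw [hmt] at h2
  rw [h2]; exact h

/-- **no `p`-torsion on the smooth locus of the node**: a nonzero `p`-torsion point of `E₀` is not integral. -/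
theorem nonint_of_inE0 (N : NodeData A W x0 y0 α β c) (I : IntData A W) (D : PData A p)
    (hadd : ∀ P Q : W.Point, InE0 A x0 P → InE0 A x0 Q → InE0 A x0 (P + Q))
    {t : W.Point} (h0 : InE0 A x0 t) (ht : t ≠ 0) (hpt : p • t = 0) :
    1 < A.valuation (xc t) := by
  by_contra hcon
  rw [not_lt] at hcon
  have hp := D.hp
  have hp1 : 1 < p := hp.one_lt
  obtain ⟨f, hf⟩ : ∃ f : W.Point → K, ∀ R, f R = (yc R - y0) - α * (xc R - x0) := ⟨_, fun _ => rfl⟩
  obtain ⟨g, hg⟩ : ∃ g : W.Point → K, ∀ R, g R = (yc R - y0) - β * (xc R - x0) := ⟨_, fun _ => rfl⟩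
  set v := A.valuation with hv
  have hE0 : ∀ k : ℕ, InE0 A x0 (k • t) := by
    intro k
    induction k with
    | zero => rw [zero_smul]; exact inE0_zero
    | succ k ih => rw [succ_nsmul]; exact hadd _ _ ih h0
  have hmul : ∀ k, 1 ≤ k → k < p → k • t ≠ 0 ∧ v (xc (k • t) - x0) = 1 := by
    intro k hk1 hkp
    have hk : ¬ p ∣ k := fun h => by have := Nat.le_of_dvd (by omega) h; omega
    have hne := nsmul_ne_zero_of_not_dvd hp ht hpt hk
    refine ⟨hne, le_antisymm ?_ ?_⟩
    · refine Valuation.map_sub_le _ ?_ N.vx0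
      by_contra h
      rw [not_le] at h
      exact absurd (nonint_of_nsmul I D ht hpt hk h) (not_lt.2 hcon)
    · rcases hE0 k with h | h
      · exact absurd h hne
      · exact h
  have hval : ∀ k, 1 ≤ k → k < p → v (f (k • t)) = 1 ∧ v (g (k • t)) = 1 := by
    intro k hk1 hkp
    obtain ⟨h1, h2⟩ := hmul k hk1 hkp
    have := val_unit_of_val_X N h1 h2
    rwa [← hf, ← hg] at this
  have hg0 : ∀ k, 1 ≤ k → k < p → g (k • t) ≠ 0 := by
    intro k hk1 hkp h0
    have := (hval k hk1 hkp).2
    rw [h0, _root_.map_zero] at this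
    exact zero_ne_one this
  have hX1 : v (xc t - x0) = 1 := by have := (hmul 1 le_rfl hp1).2; rwa [one_smul] at this
  have hft : v (f t) = 1 := by have := (hval 1 le_rfl hp1).1; rwa [one_smul] at this
  have hgt : v (g t) = 1 := by have := (hval 1 le_rfl hp1).2; rwa [one_smul] at this
  have hgt0 : g t ≠ 0 := by have := hg0 1 le_rfl hp1; rwa [one_smul] at this
  have hft0 : f t ≠ 0 := by
    intro h0
    rw [h0, _root_.map_zero] at hft
    exact zero_ne_one hft
  obtain ⟨U, hU⟩ : ∃ U, U = f t / g t := ⟨_, rfl⟩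
  obtain ⟨w, hw⟩ : ∃ w, w = U - 1 := ⟨_, rfl⟩
  have hU1 : v U = 1 := by rw [hU, map_div₀, hft, hgt, div_one]
  have hβα : v (β - α) = 1 := by rw [← N.vαβ, ← Valuation.map_neg, neg_sub]
  have hwg : w * g t = (β - α) * (xc t - x0) := by
    rw [hw, hU, sub_mul, div_mul_cancel₀ _ hgt0, hf, hg]; ring
  have hw1 : v w = 1 := by
    have := congrArg v hwg
    rwa [map_mul, map_mul, hβα, one_mul, hgt, mul_one, hX1] at this
  have hind : ∀ k, 1 ≤ k → k < p → v (f (k • t) / g (k • t) - U ^ k) ≤ v c := by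
    intro k hk1
    induction k, hk1 using Nat.le_induction with
    | base =>
      intro _
      rw [one_smul, pow_one, hU, sub_self, _root_.map_zero]
      exact zero_le
    | succ k hk1 ih =>
      intro hkp
      have ih' := ih (by omega)
      have hk0 := (hmul k hk1 (by omega)).1
      have hk1' := (hmul (k + 1) (by omega) hkp).1
      have hsucc : (k + 1) • t = t + k • t := succ_nsmul' t k
      obtain ⟨l, hl1, hl2⟩ := cocycle N ht hk0 (by rw [← hsucc]; exact hk1')
      rw [← hsucc, ← hf, ← hf, ← hf, ← hg, ← hg, ← hg] at hl2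
      rw [← hsucc] at hl1
      have hla : v ((l - α) * (l - β)) ≤ 1 := by
        rw [← hl1]
        exact Valuation.map_add_le _ (Valuation.map_add_le _ hX1.le
          (hmul k hk1 (by omega)).2.le) (hmul (k + 1) (by omega) hkp).2.le
      have hE := val_slope_term_le N le_rfl hla
      have hgk := hg0 k hk1 (by omega)
      have hgk1 := hg0 (k + 1) (by omega) hkp
      have e1 : f ((k + 1) • t) / g ((k + 1) • t) - U * (f (k • t) / g (k • t))
          = c * ((l - β) ^ 3 - (l - α) ^ 3) / (g t * g (k • t) * g ((k + 1) • t)) := by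
        rw [← hl2, hU]
        field_simp
      have h1 : v (f ((k + 1) • t) / g ((k + 1) • t) - U * (f (k • t) / g (k • t))) ≤ v c := by
        rw [e1, map_div₀, map_mul, map_mul, map_mul, hgt, (hval k hk1 (by omega)).2,
          (hval (k + 1) (by omega) hkp).2, one_mul, one_mul, div_one]
        exact mul_le_of_le_one_right' hE
      have e2 : f ((k + 1) • t) / g ((k + 1) • t) - U ^ (k + 1)
          = (f ((k + 1) • t) / g ((k + 1) • t) - U * (f (k • t) / g (k • t)))
            + U * (f (k • t) / g (k • t) - U ^ k) := by ring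
      rw [e2]
      refine Valuation.map_add_le _ h1 ?_
      rw [map_mul, hU1, one_mul]
      exact ih'
  have hlast := hind (p - 1) (by omega) (by omega)
  have hneg : (p - 1) • t = -t := by
    have : (p - 1) • t + t = 0 := by
      rw [← succ_nsmul, Nat.sub_add_cancel hp.pos, hpt]
    exact eq_neg_of_add_eq_zero_left this
  have hfneg : f (-t) = - g t := by
    rw [hf, hg, xc_neg, yc_neg ht, negY]
    linear_combination (-1 : K) * N.hy - (xc t - x0) * N.hsum
  have hgneg : g (-t) = - f t := by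
    rw [hf, hg, xc_neg, yc_neg ht, negY]
    linear_combination (-1 : K) * N.hy - (xc t - x0) * N.hsum
  rw [hneg, hfneg, hgneg] at hlast
  have e3 : (1 + w) ^ p - 1 = - (U * (-g t / -f t - U ^ (p - 1))) := by
    have h1 : 1 + w = U := by rw [hw]; ring
    have h2 : U * (-g t / -f t) = 1 := by
      rw [hU]; field_simp
    have h3 : U * U ^ (p - 1) = U ^ p := by
      rw [← pow_succ', Nat.sub_add_cancel hp.pos]
    rw [h1, mul_sub, h2, h3]; ring
  have hfin : v ((1 + w) ^ p - 1) ≤ v c := by
    rw [e3, Valuation.map_neg, map_mul, hU1, one_mul]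
    exact hlast
  rw [val_one_add_pow_sub_one hp (by rw [← hv, hw1]) (by
    rw [← hv, hw1, mul_one, one_pow]; exact D.hpA), ← hv, hw1, one_pow] at hfin
  exact absurd hfin (not_le.2 N.vc)

/-- **(b)** two `p`-torsion points of `E₀` are proportional. -/
theorem inE0_prop_of_add (N : NodeData A W x0 y0 α β c) (I : IntData A W) (D : PData A p)
    (hc : A.valuation c ≤ A.valuation (p : K))
    (hadd : ∀ P Q : W.Point, InE0 A x0 P → InE0 A x0 Q → InE0 A x0 (P + Q))
    {R R' : W.Point} (hR : InE0 A x0 R) (hR' : InE0 A x0 R') (hR0 : R ≠ 0) (hpR : p • R = 0)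
    (hpR' : p • R' = 0) : ∃ j : ℕ, R' = j • R := by
  refine exists_nsmul_of_nonintegral N I D hc hR0 hpR (nonint_of_inE0 N I D hadd hR hR0 hpR) hpR' ?_
  by_cases h : R' = 0
  · exact Or.inl h
  · exact Or.inr (nonint_of_inE0 N I D hadd hR' h hpR')

/-- **(b)**, unconditional. -/
theorem inE0_prop' (N : NodeData A W x0 y0 α β c) (I : IntData A W) (D : PData A p)
    (hc : A.valuation c ≤ A.valuation (p : K))
    {R R' : W.Point} (hR : InE0 A x0 R) (hR' : InE0 A x0 R') (hR0 : R ≠ 0) (hpR : p • R = 0)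
    (hpR' : p • R' = 0) : ∃ j : ℕ, R' = j • R :=
  inE0_prop_of_add N I D hc (fun _ _ hP hQ => N.inE0_add I hP hQ) hR hR' hR0 hpR hpR'

/-- a nonzero `p`-torsion point of `E₀` is not integral, unconditional. -/
theorem nonint_of_inE0' (N : NodeData A W x0 y0 α β c) (I : IntData A W) (D : PData A p)
    {t : W.Point} (h0 : InE0 A x0 t) (ht : t ≠ 0) (hpt : p • t = 0) :
    1 < A.valuation (xc t) :=
  nonint_of_inE0 N I D (fun _ _ hP hQ => N.inE0_add I hP hQ) h0 ht hpt

end Fermat.Agent.ML.EOrd
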