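import Fermat.Agent.ML.ESide.Ord.Height
import Fermat.Agent.HW.Pow.Unip

/-!
# ML / [E-ORD] : `[NODE-VC]`  `v c ≤ v p` for the node datum of an integral model with `p ∣ Δ`
-/

set_option autoImplicit false

namespace Fermat.Agent.ML.EOrd

open WeierstrassCurve Fermat.Agent.S05 Fermat.Agent.HW Fermat.Agent.ML.ESide.Height

local notation "Qb" => AlgebraicClosure ℚ

theorem val_c_le (W : WeierstrassCurve ℤ) {A : ValuationSubring Qb} {x0 y0 α β c : Qb}
    (N : NodeData A (EQb W) x0 y0 α β c) {p : ℕ} (hpD : (p : ℤ) ∣ W.Δ) :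
    A.valuation c ≤ A.valuation (p : Qb) := by
  obtain ⟨m, hm⟩ := hpD
  rw [val_c_eq N, Δ_EQb, hm]
  push_cast
  rw [map_mul]
  refine mul_le_of_le_one_right' ?_
  exact (A.valuation_le_one_iff _).2 (intCast_mem A m)

end Fermat.Agent.ML.EOrd
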